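import Fermat.Agent.Specialization.Torsion
import Fermat.Agent.Specialization.Cover

/-!
# Extension of the algebraically closed constants of a function field

Every place has exactly one extension, classes of degree zero inject, and a class supported on
extended places descends.
-/

set_option autoImplicit false
set_option linter.style.haveILetI false
set_option linter.unusedSectionVars false

noncomputable section

open scoped Classical

namespace FLTAgent.Jac27.Spread

open AlgebraicCurve FLTAgent.Curves FLTAgent.Specialization Polynomial IntermediateField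

variable {L K F₀ F : Type*} [Field L] [Field K] [Field F₀] [Field F] [Algebra L K] [Algebra L F₀]
  [Algebra K F] [Algebra L F] [IsScalarTower L K F] (ι : F₀ →ₐ[L] F)

/-- `F` is `F₀` with the constants extended. -/
structure ConstExt (ι : F₀ →ₐ[L] F) : Prop where
  gen : IntermediateField.adjoin K (Set.range ι) = ⊤
  trans : ∃ t : F₀, Transcendental K (ι t)

variable [IsAlgClosed L] [IsAlgClosed K] [IsFunctionField L F₀] [IsFunctionField K F]
  (h : ConstExt (K := K) ι)

omit [IsAlgClosed L] [IsAlgClosed K] [IsFunctionField L F₀] [IsFunctionField K F] in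
theorem map_adjoin_simple_mem {t z : F₀} (hz : z ∈ L⟮t⟯) : ι z ∈ K⟮ι t⟯ := by
  obtain ⟨p, q, rfl⟩ := (mem_adjoin_simple_iff L _).1 hz
  refine (mem_adjoin_simple_iff K _).2 ⟨p.map (algebraMap L K), q.map (algebraMap L K), ?_⟩
  rw [map_div₀, ← aeval_algHom_apply, ← aeval_algHom_apply, aeval_map_algebraMap,
    aeval_map_algebraMap]

include h in
theorem transcendental_map {t : F₀} (ht : Transcendental L t) : Transcendental K (ι t) := by
  intro halg
  obtain ⟨s, hs⟩ := h.trans
  haveI := finiteDimensional_adjoin (K := L) ht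
  haveI : FiniteDimensional K K⟮ι t⟯ := adjoin.finiteDimensional halg.isIntegral
  refine hs ?_
  obtain ⟨p, hp, hp0⟩ := (Algebra.IsAlgebraic.isAlgebraic s : IsAlgebraic L⟮t⟯ s)
  let e : L⟮t⟯ →+* K⟮ι t⟯ :=
    { toFun := fun z => ⟨ι z, map_adjoin_simple_mem ι z.2⟩
      map_one' := Subtype.ext (map_one ι)
      map_mul' := fun a b => Subtype.ext (map_mul ι _ _)
      map_zero' := Subtype.ext (map_zero ι)
      map_add' := fun a b => Subtype.ext (map_add ι _ _) }
  have halg2 : IsAlgebraic K⟮ι t⟯ (ι s) := by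
    refine ⟨p.map e, fun h0 => hp ((Polynomial.map_eq_zero_iff e.injective).1 h0), ?_⟩
    rw [aeval_def, eval₂_map, ← map_zero ι, ← hp0, aeval_def]
    exact (Polynomial.hom_eval₂ p (algebraMap L⟮t⟯ F₀) ι.toRingHom s).symm
  exact halg2.restrictScalars K

include h in
theorem finrank_le {t : F₀} (ht : Transcendental L t) :
    Module.finrank K⟮ι t⟯ F ≤ Module.finrank L⟮t⟯ F₀ := by
  haveI := finiteDimensional_adjoin (K := L) ht
  haveI := finiteDimensional_adjoin (K := K) (transcendental_map ι h ht)
  set b := Module.finBasis L⟮t⟯ F₀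
  set W := Submodule.span K⟮ι t⟯ (Set.range (ι ∘ b))
  have hι : ∀ f, ι f ∈ W := fun f => by
    rw [← b.sum_repr f, map_sum]
    refine Submodule.sum_mem _ fun i _ => ?_
    rw [IntermediateField.smul_def, smul_eq_mul, map_mul]
    exact W.smul_mem (⟨_, map_adjoin_simple_mem ι (b.repr f i).2⟩ : K⟮ι t⟯)
      (Submodule.subset_span ⟨i, rfl⟩)
  have hclosure : (Submonoid.closure (Set.range ι) : Set F) = Set.range ι :=
    congrArg SetLike.coe (Submonoid.closure_eq (MonoidHom.mrange (ι : F₀ →* F)))
  have hsub : Subalgebra.toSubmodule (Algebra.adjoin K⟮ι t⟯ (Set.range ι)) ≤ W := by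
    rw [Algebra.adjoin_eq_span, hclosure, Submodule.span_le]
    rintro _ ⟨f, rfl⟩
    exact hι f
  have htop : W = ⊤ := by
    refine eq_top_iff.2 fun z _ => hsub ?_
    have hz : z ∈ IntermediateField.adjoin K⟮ι t⟯ (Set.range ι) := by
      have h1 : IntermediateField.adjoin K (Set.range ι) ≤
          (IntermediateField.adjoin K⟮ι t⟯ (Set.range ι)).restrictScalars K :=
        IntermediateField.adjoin_le_iff.2 (subset_adjoin K⟮ι t⟯ _)
      exact h1 (h.gen ▸ IntermediateField.mem_top)
    rw [← IntermediateField.mem_toSubalgebra,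
      IntermediateField.adjoin_toSubalgebra_of_isAlgebraic
        (fun x _ => Algebra.IsAlgebraic.isAlgebraic x)] at hz
    exact hz
  have := finrank_range_le_card (R := K⟮ι t⟯) (ι ∘ b)
  rwa [Set.finrank, show Submodule.span K⟮ι t⟯ (Set.range (ι ∘ b)) = ⊤ from htop, finrank_top,
    Fintype.card_fin] at this

/-- A place where some function of `F₀` has a zero or pole lies over a place of `F₀`. -/
theorem exists_restrict {w : Place K F} {t : F₀} (hw : w.ord (ι t) ≠ 0) :
    ∃ (v : Place L F₀) (e : ℤ), 0 < e ∧ ∀ f : F₀, w.ord (ι f) = e * v.ord f := by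
  have ht0 : t ≠ 0 := fun h0 => hw (by simp [h0])
  let O := w.toValuationSubring.comap ι.toRingHom
  have hO : ∀ f : F₀, f ∈ O ↔ ι f ∈ w.toValuationSubring := fun f => Iff.rfl
  have hmem : ∀ a : L, algebraMap L F₀ a ∈ O := fun a => by
    rw [hO, ι.commutes, IsScalarTower.algebraMap_apply L K F]
    exact w.algebraMap_mem' _
  have htop : O ≠ ⊤ := fun he => by
    have h1 : ι t ∈ w.toValuationSubring := (hO t).1 (he ▸ ValuationSubring.mem_top t)
    have h2 : ι t⁻¹ ∈ w.toValuationSubring := (hO t⁻¹).1 (he ▸ ValuationSubring.mem_top _)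
    rw [mem_iff_ord_nonneg (by simpa using ht0)] at h1
    rw [mem_iff_ord_nonneg (by simpa using ht0), map_inv₀, w.ord_inv] at h2
    omega
  let v : Place L F₀ := placeOfValuationSubring O hmem htop
  have hsign : ∀ f : F₀, f ≠ 0 → (0 ≤ v.ord f ↔ 0 ≤ w.ord (ι f)) := fun f hf => by
    rw [← mem_iff_ord_nonneg hf, ← mem_iff_ord_nonneg (by simpa using hf)]
    exact hO f
  obtain ⟨u, hu0, hu⟩ := exists_uniformizer v
  have key : ∀ f : F₀, w.ord (ι f) = w.ord (ι u) * v.ord f := fun f => by
    rcases eq_or_ne f 0 with rfl | hf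
    · simp
    have huz := zpow_ne_zero (v.ord f) hu0
    set g := f / u ^ v.ord f
    have hg : g ≠ 0 := div_ne_zero hf huz
    have hg0 : v.ord g = 0 := by rw [ord_div v hf huz, v.ord_zpow, hu]; ring
    have h1 : w.ord (ι g) = 0 := by
      have a1 := (hsign g hg).1 hg0.ge
      have a2 := (hsign g⁻¹ (inv_ne_zero hg)).1 (by rw [v.ord_inv, hg0]; simp)
      rw [map_inv₀, w.ord_inv] at a2
      omega
    rw [map_div₀, ord_div w (by simpa using hf) ((map_ne_zero_iff ι ι.injective).2 huz), map_zpow₀, w.ord_zpow] at h1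
    rw [mul_comm]
    omega
  refine ⟨v, w.ord (ι u), ?_, key⟩
  have h1 : 0 ≤ w.ord (ι u) := (hsign u hu0).1 (by omega)
  rcases h1.eq_or_lt with h0 | h0
  · exact absurd (by rw [key t, ← h0, zero_mul] : w.ord (ι t) = 0) hw
  · exact h0

include h in
theorem exists_lift (v : Place L F₀) : ∃ w : Place K F, (∀ f, w.ord (ι f) = v.ord f) ∧
    ∀ (w' : Place K F) (e : ℤ), 0 < e → (∀ f, w'.ord (ι f) = e * v.ord f) → w' = w := by
  obtain ⟨t, N, hN, ht, hdiv⟩ := exists_only_pole (K := L) v
  have htK := transcendental_map ι h ht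
  have hvt : v.ord t = -(N : ℤ) := by
    have := congrArg (fun D : Divisor L F₀ => D v) hdiv
    simp only [poleDiv_apply, Finsupp.single_eq_same] at this
    omega
  have hdeg : Divisor.degree (poleDiv K (ι t)) ≤ (N : ℤ) := by
    rw [degree_poleDiv htK]
    refine (Int.ofNat_le.2 (finrank_le ι h ht)).trans ?_
    rw [← degree_poleDiv ht, hdiv, degree_single']
  have hpole : ∀ w : Place K F, w.ord (ι t) < 0 → ∃ e : ℤ, 0 < e ∧
      (∀ f, w.ord (ι f) = e * v.ord f) ∧ poleDiv K (ι t) w = e * N := fun w hw => by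
    obtain ⟨v', e, he, hev⟩ := exists_restrict ι hw.ne
    have hv' : v'.ord t < 0 := by
      by_contra hn
      rw [not_lt] at hn
      have := mul_nonneg he.le hn
      rw [← hev] at this
      omega
    have hvv : v' = v := by
      by_contra hne
      have := congrArg (fun D : Divisor L F₀ => D v') hdiv
      simp only [poleDiv_apply, Finsupp.single_apply, if_neg (Ne.symm hne)] at this
      omega
    subst hvv
    refine ⟨e, he, hev, ?_⟩
    rw [poleDiv_apply, hev, hvt, mul_neg, neg_neg, max_eq_left (by positivity)]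
  have hle : ∀ w : Place K F,
      Finsupp.single w (poleDiv K (ι t) w) ≤ poleDiv K (ι t) := fun w u => by
    rw [Finsupp.single_apply]
    split_ifs with hu
    · rw [hu]
    · exact poleDiv_nonneg _ u
  obtain ⟨w, hw⟩ := exists_ord_pos (K := K) (transcendental_inv htK)
  rw [w.ord_inv] at hw
  obtain ⟨e, he, hev, hpw⟩ := hpole w (by omega)
  have he1 : e = 1 := by
    have := (degree_mono (hle w)).trans hdeg
    rw [degree_single', hpw] at this
    nlinarith
  subst he1
  refine ⟨w, fun f => by rw [hev, one_mul], fun w' e' he' hev' => ?_⟩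
  by_contra hne
  have hw' : w'.ord (ι t) < 0 := by
    rw [hev', hvt, mul_neg]
    have : 0 < e' * (N : ℤ) := mul_pos he' (by exact_mod_cast hN)
    omega
  have hpos : 0 < poleDiv K (ι t) w' := by rw [poleDiv_apply]; omega
  have h2 : Finsupp.single w (poleDiv K (ι t) w) + Finsupp.single w' (poleDiv K (ι t) w') ≤
      poleDiv K (ι t) := fun u => by
    rw [Finsupp.add_apply, Finsupp.single_apply, Finsupp.single_apply]
    split_ifs with h1 h2 h2
    · exact absurd (h2.trans h1.symm) hne
    · rw [h1, add_zero]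
    · rw [h2, zero_add]
    · rw [add_zero]; exact poleDiv_nonneg _ u
  have h3 := (degree_mono h2).trans hdeg
  rw [map_add, degree_single', degree_single', hpw] at h3
  omega

/-- The extension of a place. -/
def liftPlace (v : Place L F₀) : Place K F := (exists_lift ι h v).choose

theorem ord_liftPlace (v : Place L F₀) (f : F₀) : (liftPlace ι h v).ord (ι f) = v.ord f :=
  (exists_lift ι h v).choose_spec.1 f

theorem liftPlace_injective : Function.Injective (liftPlace ι h) := by
  intro v v' e
  refine Place.ext ?_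
  ext f
  rcases eq_or_ne f 0 with rfl | hf
  · simp
  rw [mem_iff_ord_nonneg hf, mem_iff_ord_nonneg hf, ← ord_liftPlace ι h v, e, ord_liftPlace ι h v']

theorem mem_range_liftPlace {w : Place K F} {t : F₀} (hw : w.ord (ι t) ≠ 0) :
    w ∈ Set.range (liftPlace ι h) := by
  obtain ⟨v, e, he, hev⟩ := exists_restrict ι hw
  exact ⟨v, ((exists_lift ι h v).choose_spec.2 w e he hev).symm⟩

/-- Extension of divisors. -/
def liftDiv : Divisor L F₀ →+ Divisor K F := Finsupp.mapDomain.addMonoidHom (liftPlace ι h)

theorem liftDiv_apply (D : Divisor L F₀) (v : Place L F₀) :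
    liftDiv ι h D (liftPlace ι h v) = D v :=
  Finsupp.mapDomain_apply (liftPlace_injective ι h) D v

theorem liftDiv_apply_notMem (D : Divisor L F₀) {w : Place K F}
    (hw : w ∉ Set.range (liftPlace ι h)) : liftDiv ι h D w = 0 :=
  Finsupp.mapDomain_of_notMem_range _ _ hw

theorem degree_liftDiv (D : Divisor L F₀) :
    Divisor.degree (liftDiv ι h D) = Divisor.degree D := by
  induction D using Finsupp.induction with
  | zero => simp
  | single_add v n D _ _ ih =>
    rw [map_add, map_add, map_add, ih]
    show Divisor.degree (Finsupp.mapDomain (liftPlace ι h) (Finsupp.single v n)) + _ = _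
    rw [Finsupp.mapDomain_single, degree_single', degree_single']

theorem liftDiv_divOf (f : F₀) : liftDiv ι h (divOf L f) = divOf K (ι f) := by
  ext w
  by_cases hw : w ∈ Set.range (liftPlace ι h)
  · obtain ⟨v, rfl⟩ := hw
    rw [liftDiv_apply, divOf_apply, divOf_apply, ord_liftPlace]
  · rw [liftDiv_apply_notMem ι h _ hw, divOf_apply]
    by_contra hne
    exact hw (mem_range_liftPlace ι h (Ne.symm hne))

theorem map_mem_rrSpace {D : Divisor L F₀} {f : F₀} (hf : f ∈ riemannRochSpace D) :
    ι f ∈ riemannRochSpace (liftDiv ι h D) := by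
  rcases eq_or_ne f 0 with rfl | hf0
  · simp
  have hι : ι f ≠ 0 := by simpa using hf0
  rw [mem_rrSpace_iff_divOf hι, ← liftDiv_divOf ι h, ← map_add]
  intro w
  by_cases hw : w ∈ Set.range (liftPlace ι h)
  · obtain ⟨v, rfl⟩ := hw
    rw [liftDiv_apply]
    exact (mem_rrSpace_iff_divOf hf0).1 hf v
  · rw [liftDiv_apply_notMem ι h _ hw]
    simp

/-- Combinations with independent constants are as regular as their terms. -/
theorem ordGE_of_combination {I : Type*} [Fintype I] {κ : I → K} (hκ : LinearIndependent L κ)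
    (f : I → F₀) (v : Place L F₀) {c : ℤ}
    (hc : OrdGE (liftPlace ι h v) c (∑ i, κ i • ι (f i))) : ∀ i, OrdGE v c (f i) := by
  obtain ⟨u, hu0, hu⟩ := exists_uniformizer v
  obtain ⟨m₀, hm₀c, hm₀⟩ : ∃ m₀ : ℤ, m₀ ≤ c ∧ ∀ i, OrdGE v m₀ (f i) := by
    refine ⟨c - ∑ i, (|v.ord (f i)| + |c|), ?_, fun i => ordGE_of_le ?_⟩
    · have : (0 : ℤ) ≤ ∑ i, (|v.ord (f i)| + |c|) :=
        Finset.sum_nonneg fun i _ => add_nonneg (abs_nonneg _) (abs_nonneg _)
      omega
    · have := Finset.single_le_sum (f := fun i => |v.ord (f i)| + |c|)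
        (fun i _ => add_nonneg (abs_nonneg _) (abs_nonneg _)) (Finset.mem_univ i)
      have := neg_abs_le (v.ord (f i))
      have := le_abs_self c
      omega
  suffices H : ∀ m, m₀ ≤ m → m ≤ c → ∀ i, OrdGE v m (f i) from H c hm₀c le_rfl
  intro m hm
  induction m, hm using Int.le_induction with
  | base => exact fun _ => hm₀
  | succ m hm ih =>
    intro hmc
    have ihm := ih (by omega)
    choose a ha using fun i => exists_residue_smul v hu (ihm i)
    set w := liftPlace ι h v
    have hlift : ∀ i, OrdGE w (m + 1) (ι (f i - a i • u ^ m)) := fun i => by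
      rcases ha i with h0 | h0
      · exact Or.inl (by rw [h0, map_zero])
      · exact Or.inr (by rwa [ord_liftPlace])
    have h1 : OrdGE w (m + 1) ((∑ i, a i • κ i) • ι (u ^ m)) := by
      have he : (∑ i, a i • κ i) • ι (u ^ m) =
          (∑ i, κ i • ι (f i)) - ∑ i, κ i • ι (f i - a i • u ^ m) := by
        rw [← Finset.sum_sub_distrib, Finset.sum_smul]
        refine Finset.sum_congr rfl fun i _ => ?_
        rw [map_sub, map_smul, smul_sub, sub_sub_cancel, smul_comm, smul_assoc]
      rw [he]
      exact (hc.mono hmc).sub (OrdGE.sum fun i _ => (hlift i).smul (κ i))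
    have hzero : ∑ i, a i • κ i = 0 := by
      by_contra hne
      have hu' : ι (u ^ m) ≠ 0 := (map_ne_zero_iff ι ι.injective).2 (zpow_ne_zero m hu0)
      have h2 := h1.le_ord (smul_ne_zero hne hu')
      rw [Algebra.smul_def, w.ord_mul ((_root_.map_ne_zero _).2 hne) hu', ord_algebraMap,
        ord_liftPlace, v.ord_zpow, hu] at h2
      omega
    intro i
    have := ha i
    rwa [Fintype.linearIndependent_iff.1 hκ a hzero i, zero_smul, sub_zero] at this

include h in
theorem eq_zero_of_combination {I : Type*} [Fintype I] {κ : I → K} (hκ : LinearIndependent L κ)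
    (f : I → F₀) (hsum : ∑ i, κ i • ι (f i) = 0) : f = 0 := by
  obtain ⟨t, ht, -⟩ := IsFunctionField.exists_transcendental (K := L) (F := F₀)
  obtain ⟨v, -⟩ := exists_ord_pos (K := L) ht
  refine funext fun i => ?_
  by_contra hne
  have := (ordGE_of_combination ι h hκ f v (c := v.ord (f i) + 1) (Or.inl hsum) i).le_ord hne
  omega

/-- Regrouping a combination along independent constants. -/
theorem exists_regroup {r : ℕ} (κ : Fin r → K) (g : Fin r → F₀) :
    ∃ (s : ℕ) (β : Fin s → K) (c : Fin r → Fin s → L), LinearIndependent L β ∧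
      (∀ i, κ i = ∑ a, c i a • β a) ∧
      ∑ i, κ i • ι (g i) = ∑ a, β a • ι (∑ i, c i a • g i) := by
  set U := Submodule.span L (Set.range κ)
  haveI : FiniteDimensional L U := FiniteDimensional.span_of_finite L (Set.finite_range κ)
  let b := Module.finBasis L U
  refine ⟨_, fun a => (b a : K), fun i a => b.repr ⟨κ i, Submodule.subset_span ⟨i, rfl⟩⟩ a,
    b.linearIndependent.map' U.subtype (Submodule.ker_subtype _), ?_, ?_⟩
  · intro i
    have := congrArg U.subtype (b.sum_repr ⟨κ i, Submodule.subset_span ⟨i, rfl⟩⟩)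
    rw [map_sum] at this
    simpa using this.symm
  · simp only [map_sum, map_smul, Finset.smul_sum]
    rw [Finset.sum_comm]
    refine Finset.sum_congr rfl fun i _ => ?_
    have := congrArg U.subtype (b.sum_repr ⟨κ i, Submodule.subset_span ⟨i, rfl⟩⟩)
    rw [map_sum] at this
    simp only [map_smul, Submodule.subtype_apply] at this
    conv_lhs => rw [← this]
    rw [Finset.sum_smul]
    exact Finset.sum_congr rfl fun a _ => by rw [smul_assoc, smul_comm]

include h in
theorem linearIndependent_map {r : ℕ} {g : Fin r → F₀} (hg : LinearIndependent L g) :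
    LinearIndependent K (ι ∘ g) := by
  rw [Fintype.linearIndependent_iff]
  intro κ hκ i
  obtain ⟨s, β, c, hβ, hc, he⟩ := exists_regroup ι κ g
  have h0 := eq_zero_of_combination ι h hβ _ (he ▸ hκ)
  rw [hc i]
  exact Finset.sum_eq_zero fun a _ => by
    rw [Fintype.linearIndependent_iff.1 hg (fun j => c j a) (congrFun h0 a) i, zero_smul]

theorem ell_le (D : Divisor L F₀) : ell D ≤ ell (liftDiv ι h D) := by
  let b := Module.finBasis L (riemannRochSpace D)
  have hli := linearIndependent_map ι h (g := fun i => (b i : F₀))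
    (b.linearIndependent.map' (riemannRochSpace D).subtype (Submodule.ker_subtype _))
  have hle : Submodule.span K (Set.range (ι ∘ fun i => (b i : F₀))) ≤
      riemannRochSpace (liftDiv ι h D) :=
    Submodule.span_le.2 (by rintro _ ⟨i, rfl⟩; exact map_mem_rrSpace ι h (b i).2)
  have := Submodule.finrank_mono hle
  rw [finrank_span_eq_card hli, Fintype.card_fin] at this
  exact Int.ofNat_le.2 this

include h in
theorem rGenus_map_le : rGenus K F ≤ rGenus L F₀ := by
  obtain ⟨t, ht, -⟩ := IsFunctionField.exists_transcendental (K := L) (F := F₀)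
  obtain ⟨v, -⟩ := exists_ord_pos (K := L) ht
  set G : Divisor L F₀ := Finsupp.single v (max (rBound L F₀) (rBound K F)) with hG
  have hd : Divisor.degree G = max (rBound L F₀) (rBound K F) := degree_single' _ _
  have h1 := ell_le ι h G
  rw [ell_eq (G := G) (by rw [hd]; exact le_max_left _ _),
    ell_eq (G := liftDiv ι h G) (by rw [degree_liftDiv, hd]; exact le_max_right _ _),
    degree_liftDiv] at h1
  omega

/-- A divisor which becomes principal was principal. -/
theorem isPrincipal_of_liftDiv (hg : rGenus L F₀ ≤ rGenus K F) {D : Divisor L F₀}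
    (hD : Divisor.degree D = 0) (hp : Divisor.IsPrincipal (liftDiv ι h D)) :
    Divisor.IsPrincipal D := by
  obtain ⟨h₀, hh₀, hdiv⟩ := isPrincipal_iff.1 hp
  obtain ⟨t, ht, -⟩ := IsFunctionField.exists_transcendental (K := L) (F := F₀)
  obtain ⟨v, -⟩ := exists_ord_pos (K := L) ht
  set G := D + Finsupp.single v (max (rBound L F₀) (rBound K F)) with hG
  have hd : Divisor.degree G = max (rBound L F₀) (rBound K F) := by
    rw [hG, map_add, hD, degree_single', zero_add]
  have hmax : 0 ≤ max (rBound L F₀) (rBound K F) := le_max_of_le_left rBound_nonneg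
  have hell : ell G = ell (liftDiv ι h G) := by
    rw [ell_eq (G := G) (by rw [hd]; exact le_max_left _ _),
      ell_eq (G := liftDiv ι h G) (by rw [degree_liftDiv, hd]; exact le_max_right _ _),
      degree_liftDiv]
    have := rGenus_map_le ι h
    omega
  let b := Module.finBasis L (riemannRochSpace G)
  have hli := linearIndependent_map ι h (g := fun i => (b i : F₀))
    (b.linearIndependent.map' (riemannRochSpace G).subtype (Submodule.ker_subtype _))
  have hspan : Submodule.span K (Set.range (ι ∘ fun i => (b i : F₀))) =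
      riemannRochSpace (liftDiv ι h G) := by
    refine Submodule.eq_of_le_of_finrank_le
      (Submodule.span_le.2 (by rintro _ ⟨i, rfl⟩; exact map_mem_rrSpace ι h (b i).2)) ?_
    rw [finrank_span_eq_card hli, Fintype.card_fin]
    exact le_of_eq (Nat.cast_injective hell).symm
  have hinv : h₀⁻¹ ∈ riemannRochSpace (liftDiv ι h D) := by
    rw [mem_rrSpace_iff_divOf (inv_ne_zero hh₀), hdiv]
    intro w
    simp [Place.ord_inv]
  have hmemG : h₀⁻¹ ∈ riemannRochSpace (liftDiv ι h G) := by
    refine rrSpace_le (fun w => ?_) hinv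
    rw [hG, map_add, Finsupp.add_apply]
    by_cases hw : w ∈ Set.range (liftPlace ι h)
    · obtain ⟨u, rfl⟩ := hw
      simp only [liftDiv_apply, Finsupp.single_apply]
      split_ifs <;> omega
    · simp [liftDiv_apply_notMem ι h _ hw]
  rw [← hspan, Submodule.mem_span_range_iff_exists_fun] at hmemG
  obtain ⟨κ, hκ⟩ := hmemG
  obtain ⟨s, β, c, hβ, -, he⟩ := exists_regroup ι κ (fun i => (b i : F₀))
  have hcomb : ∑ a, β a • ι (∑ i, c i a • (b i : F₀)) = h₀⁻¹ := he ▸ hκ
  have hall : ∀ a, (∑ i, c i a • (b i : F₀)) ∈ riemannRochSpace D := fun a =>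
    mem_rrSpace.2 fun u => ordGE_of_combination ι h hβ _ u (c := -D u) (by
      rw [hcomb, ← liftDiv_apply ι h D u]
      exact mem_rrSpace.1 hinv _) a
  obtain ⟨a, ha⟩ : ∃ a, (∑ i, c i a • (b i : F₀)) ≠ 0 := by
    by_contra! hz
    exact inv_ne_zero hh₀ (by rw [← hcomb]; simp [hz])
  set f := ∑ i, c i a • (b i : F₀)
  have h3 := eq_of_le_of_degree_le ((mem_rrSpace_iff_divOf ha).1 (hall a))
    (by rw [map_add, degree_divOf, hD, map_zero]; omega)
  refine isPrincipal_iff.2 ⟨f⁻¹, inv_ne_zero ha, Finsupp.ext fun u => ?_⟩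
  have := congrArg (fun E : Divisor L F₀ => E u) h3
  simp only [Finsupp.add_apply, Finsupp.coe_zero, Pi.zero_apply, divOf_apply] at this ⊢
  rw [Place.ord_inv]
  omega

/-- Extension of classes. -/
def liftPic : Pic0 L F₀ →+ Pic0 K F :=
  QuotientAddGroup.map _ _
    (((liftDiv ι h).comp (AddSubgroup.subtype _)).codRestrict _ fun D => Divisor.mem_degZero.2 (by
      show Divisor.degree (liftDiv ι h (D : Divisor L F₀)) = 0
      rw [degree_liftDiv]; exact D.2))
    fun D hD => by
      obtain ⟨f, hf, e⟩ := isPrincipal_iff.1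
        (show Divisor.IsPrincipal (D : Divisor L F₀) from hD)
      exact isPrincipal_iff.2 ⟨ι f, by simpa using hf, by
        show liftDiv ι h (D : Divisor L F₀) = _
        rw [e, liftDiv_divOf]⟩

theorem liftPic_injective (hg : rGenus L F₀ ≤ rGenus K F) :
    Function.Injective (liftPic ι h) := by
  rw [injective_iff_map_eq_zero]
  intro a ha
  obtain ⟨D, rfl⟩ := Pic0.mk_surjective a
  exact (QuotientAddGroup.eq_zero_iff _).2
    (isPrincipal_of_liftDiv ι h hg D.2 ((QuotientAddGroup.eq_zero_iff _).1 ha))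

theorem mk_mem_range_liftPic (D : Divisor.degZero (K := K) (F := F))
    (hD : ∀ w ∈ (D : Divisor K F).support, w ∈ Set.range (liftPlace ι h)) :
    Pic0.mk D ∈ Set.range (liftPic ι h) := by
  set D₀ : Divisor L F₀ :=
    Finsupp.comapDomain (liftPlace ι h) (D : Divisor K F) (liftPlace_injective ι h).injOn
  have he : liftDiv ι h D₀ = (D : Divisor K F) :=
    Finsupp.mapDomain_comapDomain _ (liftPlace_injective ι h) _ hD
  refine ⟨Pic0.mk ⟨D₀, Divisor.mem_degZero.2 ?_⟩, ?_⟩
  · rw [← degree_liftDiv ι h D₀, he]; exact D.2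
  · exact congrArg Pic0.mk (Subtype.ext he)

end FLTAgent.Jac27.Spread
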