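import Mathlib

/-!
# Nullstellensatz certificates which survive specialisation

If a polynomial vanishes on the common zeros of a system, the identity expressing this only
involves finitely many constants, so it persists wherever these constants are integral.
-/

set_option autoImplicit false

noncomputable section

namespace FLTAgent.Jac27.Spread

universe u

variable {L : Type u} [Field L] [IsAlgClosed L] {σ τ : Type*} [Finite σ]

/-- One certificate. -/
theorem exists_cert (P : τ → MvPolynomial σ L) (lam : MvPolynomial σ L)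
    (h : ∀ c : σ → L, (∀ t, MvPolynomial.eval c (P t) = 0) → MvPolynomial.eval c lam = 0) :
    ∃ T : Finset L, ∀ (R k : Type u) [CommRing R] [Field k] (iL : R →+* L) (ik : R →+* k),
      Function.Injective iL → ↑T ⊆ Set.range iL → ∀ (PR : τ → MvPolynomial σ R)
      (lamR : MvPolynomial σ R), (∀ t, MvPolynomial.map iL (PR t) = P t) →
      MvPolynomial.map iL lamR = lam →
      ∀ c : σ → k, (∀ t, MvPolynomial.eval₂ ik c (PR t) = 0) →
        MvPolynomial.eval₂ ik c lamR = 0 := by
  classical
  set I := Ideal.span (Set.range P)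
  have hmem : lam ∈ I.radical := by
    rw [← MvPolynomial.vanishingIdeal_zeroLocus_eq_radical (K := L) I,
      MvPolynomial.mem_vanishingIdeal_iff]
    intro c hc
    rw [MvPolynomial.aeval_eq_eval]
    refine h c fun t => ?_
    rw [← MvPolynomial.aeval_eq_eval]
    exact MvPolynomial.mem_zeroLocus_iff.1 hc _ (Ideal.subset_span ⟨t, rfl⟩)
  obtain ⟨e, he⟩ := hmem
  obtain ⟨q, hq⟩ := Finsupp.mem_span_range_iff_exists_finsupp.1
    (show lam ^ e ∈ Submodule.span (MvPolynomial σ L) (Set.range P) from he)
  refine ⟨q.support.biUnion fun t => (q t).support.image fun d => (q t).coeff d,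
    fun R k _ _ iL ik hinj hT PR lamR hP hlam c hc => ?_⟩
  have hlift : ∀ t, ∃ qR : MvPolynomial σ R, MvPolynomial.map iL qR = q t := fun t => by
    show q t ∈ Set.range (MvPolynomial.map iL)
    rw [MvPolynomial.mem_range_map_iff_coeffs_subset]
    intro x hx
    rw [Finset.mem_coe, MvPolynomial.mem_coeffs_iff] at hx
    obtain ⟨d, hd, rfl⟩ := hx
    exact hT (Finset.mem_biUnion.2 ⟨t, Finsupp.mem_support_iff.2 fun h0 => by simp [h0] at hd,
      Finset.mem_image_of_mem _ hd⟩)
  choose qR hqR using hlift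
  have hid : lamR ^ e = ∑ t ∈ q.support, qR t * PR t := by
    refine MvPolynomial.map_injective iL hinj ?_
    rw [map_pow, hlam, map_sum, ← hq, Finsupp.sum]
    exact Finset.sum_congr rfl fun t _ => by rw [map_mul, hqR, hP, smul_eq_mul]
  have h2 := congrArg (MvPolynomial.eval₂Hom ik c) hid
  rw [map_pow, map_sum, Finset.sum_eq_zero fun t _ => by
    rw [map_mul, MvPolynomial.coe_eval₂Hom, hc t, mul_zero]] at h2
  exact eq_zero_of_pow_eq_zero h2

/-- A system with no solution keeps none. -/
theorem exists_cert_none (P : τ → MvPolynomial σ L)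
    (h : ∀ c : σ → L, ¬ ∀ t, MvPolynomial.eval c (P t) = 0) :
    ∃ T : Finset L, ∀ (R k : Type u) [CommRing R] [Field k] (iL : R →+* L) (ik : R →+* k),
      Function.Injective iL → ↑T ⊆ Set.range iL → ∀ (PR : τ → MvPolynomial σ R),
      (∀ t, MvPolynomial.map iL (PR t) = P t) →
      ∀ c : σ → k, ¬ ∀ t, MvPolynomial.eval₂ ik c (PR t) = 0 := by
  obtain ⟨T, hT⟩ := exists_cert P 1 fun c hc => absurd hc (h c)
  refine ⟨T, fun R k _ _ iL ik hinj hsub PR hP c hc => ?_⟩
  have := hT R k iL ik hinj hsub PR 1 hP (map_one _) c hc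
  simp at this

/-- The dimension of linear spaces of solutions does not rise. -/
theorem exists_cert_dim {σ : Type*} [Fintype σ] (P : τ → MvPolynomial σ L) (V : Submodule L (σ → L))
    (hV : ∀ c : σ → L, (∀ t, MvPolynomial.eval c (P t) = 0) → c ∈ V) :
    ∃ T : Finset L, ∀ (R k : Type u) [CommRing R] [Field k] (iL : R →+* L) (ik : R →+* k),
      Function.Injective iL → ↑T ⊆ Set.range iL → ∀ (PR : τ → MvPolynomial σ R),
      (∀ t, MvPolynomial.map iL (PR t) = P t) →
      ∀ U : Submodule k (σ → k), (∀ c ∈ U, ∀ t, MvPolynomial.eval₂ ik c (PR t) = 0) →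
        Module.finrank k U ≤ Module.finrank L V := by
  classical
  set r := Module.finrank L ((σ → L) ⧸ V)
  let lin : (σ → L) →ₗ[L] (Fin r → L) := (Module.finBasis L _).equivFun.toLinearMap ∘ₗ V.mkQ
  have hlin : Function.Surjective lin :=
    (Module.finBasis L _).equivFun.surjective.comp V.mkQ_surjective
  obtain ⟨inv, hinv⟩ := lin.exists_rightInverse_of_surjective (LinearMap.range_eq_top.2 hlin)
  let Λ := LinearMap.toMatrix' lin
  let Γ := LinearMap.toMatrix' inv
  have hΛΓ : Λ * Γ = 1 := by
    rw [← LinearMap.toMatrix'_comp, hinv, LinearMap.toMatrix'_id]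
  let lam : Fin r → MvPolynomial σ L := fun i => ∑ j, MvPolynomial.C (Λ i j) * MvPolynomial.X j
  have hlam : ∀ c i, MvPolynomial.eval c (lam i) = lin c i := fun c i => by
    simp only [lam, map_sum, map_mul, MvPolynomial.eval_C, MvPolynomial.eval_X]
    rw [← LinearMap.toMatrix'_mulVec]
    rfl
  have hvan : ∀ i (c : σ → L), (∀ t, MvPolynomial.eval c (P t) = 0) →
      MvPolynomial.eval c (lam i) = 0 := fun i c hc => by
    rw [hlam]
    have : V.mkQ c = 0 := (Submodule.Quotient.mk_eq_zero _).2 (hV c hc)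
    simp [lin, this]
  choose T hT using fun i => exists_cert P (lam i) (hvan i)
  refine ⟨(Finset.univ.biUnion T) ∪ Finset.univ.image (fun p : Fin r × σ => Λ p.1 p.2) ∪
      Finset.univ.image (fun p : σ × Fin r => Γ p.1 p.2),
    fun R k _ _ iL ik hinj hsub PR hP U hU => ?_⟩
  simp only [Finset.coe_union, Set.union_subset_iff, Finset.coe_biUnion, Finset.coe_image,
    Finset.coe_univ, Set.image_univ, Set.mem_univ, Set.iUnion_true, Set.iUnion_subset_iff,
    Set.range_subset_iff] at hsub
  obtain ⟨⟨hTs, hΛ⟩, hΓ⟩ := hsub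
  choose ΛR hΛR using fun p => hΛ p
  choose ΓR hΓR using fun p => hΓ p
  let ΛM : Matrix (Fin r) σ R := Matrix.of fun i j => ΛR (i, j)
  let ΓM : Matrix σ (Fin r) R := Matrix.of fun j i => ΓR (j, i)
  have hprod : ΛM * ΓM = 1 := by
    refine Matrix.map_injective hinj ?_
    simp only [Matrix.map_mul, Matrix.map_one iL (map_zero iL) (map_one iL)]
    rw [← hΛΓ]
    congr 1 <;> ext a b
    · exact hΛR (a, b)
    · exact hΓR (a, b)
  let lk : (σ → k) →ₗ[k] (Fin r → k) := Matrix.mulVecLin (ΛM.map ik)
  have hsurj : Function.Surjective lk := fun y => by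
    refine ⟨(ΓM.map ik).mulVec y, ?_⟩
    show (ΛM.map ik).mulVec ((ΓM.map ik).mulVec y) = y
    rw [Matrix.mulVec_mulVec, ← Matrix.map_mul, hprod, Matrix.map_one ik (map_zero ik) (map_one ik),
      Matrix.one_mulVec]
  have hker : U ≤ LinearMap.ker lk := fun c hc => funext fun i => by
    have h := hT i R k iL ik hinj (hTs i) PR (∑ j, MvPolynomial.C (ΛM i j) * MvPolynomial.X j) hP
      (by simp [lam, ΛM, hΛR]) c (hU c hc)
    simpa [lk, Matrix.mulVec, dotProduct, MvPolynomial.eval₂_sum] using h
  have h1 := lk.finrank_range_add_finrank_ker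
  rw [LinearMap.range_eq_top.2 hsurj, finrank_top, Module.finrank_fin_fun] at h1
  have h2 := Submodule.finrank_mono hker
  have h3 := Submodule.finrank_quotient_add_finrank V
  simp only [Module.finrank_pi] at h1 h3
  omega

end FLTAgent.Jac27.Spread
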