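import Fermat.Agent.Jac27.Spread.Matrices
import Fermat.Agent.Specialization.Riemann

/-!
# Function fields presented by one monic relation

Membership in the spaces of functions with bounded poles is expressed by the coefficients of
characteristic polynomials.
-/

set_option autoImplicit false
set_option linter.style.haveILetI false
set_option linter.unusedSectionVars false

noncomputable section

open scoped Classical

namespace FLTAgent.Jac27.Spread

open AlgebraicCurve FLTAgent.Curves FLTAgent.Specialization Polynomial IntermediateField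

variable {K F : Type*} [Field K] [Field F] [Algebra K F]

/-- A presentation of `F` over `K(x)` by a monic relation for `y`. -/
structure Pres (K F : Type*) [Field K] [Field F] [Algebra K F] (n : ℕ) (φ : Fin n → K[X]) where
  x : F
  y : F
  trans : Transcendental K x
  pos : 0 < n
  rel : y ^ n + ∑ j, aeval x (φ j) * y ^ (j : ℕ) = 0
  indep : LinearIndependent K⟮x⟯ fun j : Fin n => y ^ (j : ℕ)
  finrank_eq : Module.finrank K⟮x⟯ F = n

/-- A polynomial as an element of `K(x)`. -/
def polyIn (x : F) : K[X] →ₐ[K] K⟮x⟯ := aeval (AdjoinSimple.gen K x)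

theorem coe_polyIn (x : F) (p : K[X]) : (polyIn x p : F) = aeval x p := by
  simpa [polyIn] using (aeval_algHom_apply K⟮x⟯.val (AdjoinSimple.gen K x) p).symm

namespace Pres

variable {n : ℕ} {φ : Fin n → K[X]} (P : Pres K F n φ)

/-- The element with the given polynomial coordinates. -/
def ev (g : Fin n → K[X]) : F := ∑ j : Fin n, aeval P.x (g j) * P.y ^ (j : ℕ)

theorem finiteDimensional : FiniteDimensional K⟮P.x⟯ F :=
  Module.finite_of_finrank_pos (by rw [P.finrank_eq]; exact P.pos)

theorem isFunctionField (P : Pres K F n φ) : IsFunctionField K F :=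
  IsFunctionField.mk_of P.x P.trans P.finiteDimensional

/-- The basis of powers of `y`. -/
def basis : Module.Basis (Fin n) K⟮P.x⟯ F :=
  haveI : Nonempty (Fin n) := ⟨⟨0, P.pos⟩⟩
  basisOfLinearIndependentOfCardEqFinrank P.indep (by rw [Fintype.card_fin, P.finrank_eq])

theorem basis_apply (j : Fin n) : P.basis j = P.y ^ (j : ℕ) := by
  simp [basis]

theorem coord_eq_zero {c : Fin n → K⟮P.x⟯} (h : ∑ j, (c j : F) * P.y ^ (j : ℕ) = 0) : c = 0 :=
  funext fun i => Fintype.linearIndependent_iff.1 P.indep c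
    (by simpa [IntermediateField.smul_def] using h) i

theorem ev_injective {g : Fin n → K[X]} (h : P.ev g = 0) : g = 0 := by
  have h1 := P.coord_eq_zero (c := fun j => polyIn P.x (g j)) (by simpa [ev, coe_polyIn] using h)
  refine funext fun j => ?_
  have h2 : aeval P.x (g j) = 0 := by
    rw [← coe_polyIn, congrFun h1 j]; rfl
  by_contra h0
  exact aeval_ne_zero P.trans h0 h2

/-- The multiplication matrices. -/
def matOf : F →ₐ[K⟮P.x⟯] Matrix (Fin n) (Fin n) K⟮P.x⟯ := Algebra.leftMulMatrix P.basis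

theorem matOf_y : P.matOf P.y = comp (polyIn P.x ∘ φ) := by
  ext i j
  rw [matOf, Algebra.leftMulMatrix_eq_repr_mul, basis_apply, ← pow_succ']
  congr 1
  simp only [comp, Matrix.of_apply, Function.comp_apply]
  split_ifs with hj hi
  · rw [show P.y ^ ((j : ℕ) + 1) = P.basis ⟨(j : ℕ) + 1, hj⟩ from (P.basis_apply ⟨(j : ℕ) + 1, hj⟩).symm,
      Module.Basis.repr_self, Finsupp.single_apply, if_pos (Fin.ext hi.symm)]
  · rw [show P.y ^ ((j : ℕ) + 1) = P.basis ⟨(j : ℕ) + 1, hj⟩ from (P.basis_apply ⟨(j : ℕ) + 1, hj⟩).symm,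
      Module.Basis.repr_self, Finsupp.single_apply, if_neg fun e => hi (congrArg Fin.val e).symm]
  · have hjn : (j : ℕ) + 1 = n := le_antisymm j.2 (not_lt.1 hj)
    have h : P.y ^ ((j : ℕ) + 1) = ∑ l, (-polyIn P.x (φ l)) • P.basis l := by
      rw [hjn]
      simp only [basis_apply, IntermediateField.smul_def, smul_eq_mul, NegMemClass.coe_neg,
        neg_mul, Finset.sum_neg_distrib, coe_polyIn]
      exact eq_neg_of_add_eq_zero_left P.rel
    rw [h, Module.Basis.repr_sum_self]

theorem matOf_ev (g : Fin n → K[X]) :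
    P.matOf (P.ev g) = mulMat (polyIn P.x ∘ φ) (polyIn P.x ∘ g) := by
  rw [show P.ev g = ∑ j, polyIn P.x (g j) • P.y ^ (j : ℕ) from
    Finset.sum_congr rfl fun j _ => by rw [IntermediateField.smul_def, smul_eq_mul, coe_polyIn],
    map_sum, mulMat]
  exact Finset.sum_congr rfl fun j _ => by rw [map_smul, map_pow, P.matOf_y]; rfl

/-- The coefficients of the characteristic polynomial of a function. -/
def chi (f : F) (i : ℕ) : F := ((P.matOf f).charpoly.coeff i : K⟮P.x⟯)

theorem chi_ev (g : Fin n → K[X]) (i : ℕ) :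
    P.chi (P.ev g) i = aeval P.x (chiCoeff φ g i) := by
  rw [chi, P.matOf_ev, ← coe_polyIn]
  congr 1
  exact (chiCoeff_map (polyIn P.x).toRingHom φ g i).symm

theorem chi_top (f : F) : P.chi f n = 1 := by
  have h := (P.matOf f).charpoly_natDegree_eq_dim
  rw [Fintype.card_fin] at h
  rw [chi, show (P.matOf f).charpoly.coeff n = 1 from
    (congrArg (P.matOf f).charpoly.coeff h.symm).trans (P.matOf f).charpoly_monic.coeff_natDegree]
  rfl

theorem sum_chi (f : F) : ∑ i ∈ Finset.range (n + 1), P.chi f i * f ^ i = 0 := by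
  have h0 : aeval f (P.matOf f).charpoly = 0 := by
    refine Algebra.leftMulMatrix_injective P.basis ?_
    rw [map_zero, ← aeval_algHom_apply]
    exact Matrix.aeval_self_charpoly _
  have hd := (P.matOf f).charpoly_natDegree_eq_dim
  rw [Fintype.card_fin] at hd
  rw [aeval_eq_sum_range, hd] at h0
  simpa [chi, IntermediateField.smul_def] using h0

variable [IsAlgClosed K] [IsFunctionField K F]

/-- A monic equation with coefficients of small degree bounds the poles. -/
theorem mem_of_equation (f : F) (N : ℕ) (a : ℕ → K[X])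
    (h : ∑ i ∈ Finset.range n, aeval P.x (a i) * f ^ i + f ^ n = 0)
    (hdeg : ∀ i < n, (a i).natDegree ≤ (n - i) * N) :
    f ∈ riemannRochSpace ((N : ℤ) • poleDiv K P.x) := by
  have key : ∀ (v : Place K F) (c : ℤ),
      (∀ i < n, OrdGE v (((n : ℤ) - i) * c) (aeval P.x (a i))) → OrdGE v c f := by
    intro v c hc
    by_contra hcon
    have hf0 : f ≠ 0 := fun h0 => hcon (Or.inl h0)
    have hlt : v.ord f < c := not_le.1 fun h0 => hcon (ordGE_of_le h0)
    have h1 : OrdGE v ((n : ℤ) * v.ord f + 1) (∑ i ∈ Finset.range n, aeval P.x (a i) * f ^ i) := by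
      refine OrdGE.sum fun i hi => ?_
      have hin := Finset.mem_range.1 hi
      refine ((hc i hin).mul (ordGE_of_le (ord_pow v f i).ge)).mono ?_
      have h2 : (1 : ℤ) ≤ (n : ℤ) - i := by
        have : (i : ℤ) < n := by exact_mod_cast hin
        omega
      nlinarith [mul_le_mul h2 (show (1 : ℤ) ≤ c - v.ord f by omega) zero_le_one (by omega)]
    rw [add_comm, add_eq_zero_iff_eq_neg] at h
    have h2 : OrdGE v ((n : ℤ) * v.ord f + 1) (f ^ n) := h ▸ h1.neg
    have h3 := h2.le_ord (pow_ne_zero _ hf0)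
    rw [ord_pow] at h3
    omega
  rw [mem_rrSpace_poles]
  refine ⟨fun v hv => key v 0 fun i _ => by simpa using ordGE_aeval hv (a i),
    fun v hv => key v _ fun i hi => ?_⟩
  rcases eq_or_ne (a i) 0 with h0 | h0
  · exact Or.inl (by rw [h0, map_zero])
  refine ordGE_of_le ?_
  rw [(ord_aeval_of_neg hv h0).1]
  have h1 : ((a i).natDegree : ℤ) ≤ ((n : ℤ) - i) * N := by
    have := hdeg i hi
    have h2 : (((n - i) * N : ℕ) : ℤ) = ((n : ℤ) - i) * N := by
      push_cast [Nat.cast_sub hi.le]; rfl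
    omega
  nlinarith [mul_le_mul_of_nonpos_right h1 hv.le]

/-- Transfer of the characteristic polynomial to another basis. -/
theorem chi_eq_of_basis {ι : Type*} [Fintype ι] [DecidableEq ι] (b : Module.Basis ι K⟮P.x⟯ F)
    (f : F) (i : ℕ) : P.chi f i = ((Algebra.leftMulMatrix b f).charpoly.coeff i : K⟮P.x⟯) := by
  rw [chi, matOf]
  congr 1
  haveI := P.finiteDimensional
  have h1 := LinearMap.charpoly_toMatrix (Algebra.lmul K⟮P.x⟯ F f) b
  have h2 := LinearMap.charpoly_toMatrix (Algebra.lmul K⟮P.x⟯ F f) P.basis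
  rw [Algebra.leftMulMatrix_apply, Algebra.leftMulMatrix_apply, h1, h2]

/-- The characteristic polynomial of a function with bounded poles. -/
theorem chi_of_mem (f : F) (N : ℕ) (hf : f ∈ riemannRochSpace ((N : ℤ) • poleDiv K P.x)) {i : ℕ}
    (hi : i ≤ n) :
    ∃ a : K[X], a.natDegree ≤ (n - i) * N ∧ P.chi f i = aeval P.x a := by
  haveI := P.finiteDimensional
  rw [mem_rrSpace_poles] at hf
  obtain ⟨B⟩ := nonempty_reducedBasis (K := K) P.trans
  let O : Subring K⟮P.x⟯ := (polyIn P.x).range.toSubring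
  have hO : (Algebra.leftMulMatrix (B.wBasis P.trans) f).charpoly.coeff i ∈ O := by
    refine charpoly_coeff_mem O _ (fun l j => ?_) i
    obtain ⟨p, hp⟩ := B.exists_polynomial_coord P.trans (f := f * B.w j) fun v hv => by
      simpa using (hf.1 v hv).mul (B.integral j v hv)
    refine ⟨p l, Subtype.ext ?_⟩
    rw [Algebra.leftMulMatrix_eq_repr_mul, ReducedBasis.coe_wBasis]
    exact (coe_polyIn P.x (p l)).trans (hp l).symm
  obtain ⟨a, ha⟩ := hO
  have hchi : P.chi f i = aeval P.x a := by
    rw [P.chi_eq_of_basis (B.wBasis P.trans), ← ha]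
    exact coe_polyIn P.x a
  refine ⟨a, ?_, hchi⟩
  rcases eq_or_ne a 0 with ha0 | ha0
  · simp [ha0]
  obtain ⟨v, hv⟩ := exists_ord_pos (K := K) (transcendental_inv P.trans)
  rw [v.ord_inv] at hv
  have hvx : v.ord P.x < 0 := by omega
  have hx0 := ne_zero_of_transcendental P.trans
  -- the basis normalised at the poles
  let s : Fin (Module.finrank K⟮P.x⟯ F) → K⟮P.x⟯ :=
    fun j => (AdjoinSimple.gen K P.x)⁻¹ ^ B.k j
  have hs : ∀ j, IsUnit (s j) := fun j => IsUnit.mk0 _ (pow_ne_zero _ (inv_ne_zero fun h0 =>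
    hx0 (congrArg Subtype.val h0)))
  let bu := (B.wBasis P.trans).isUnitSMul hs
  have hbu : ∀ j, bu j = B.u j := fun j => by
    rw [Module.Basis.isUnitSMul_apply, ReducedBasis.coe_wBasis, IntermediateField.smul_def,
      ReducedBasis.u, mul_comm, smul_eq_mul]
    simp [s]
  -- scaled entries are regular at `v`
  let O' : Subring K⟮P.x⟯ := v.toValuationSubring.toSubring.comap (algebraMap K⟮P.x⟯ F)
  set σ : K⟮P.x⟯ := (AdjoinSimple.gen K P.x)⁻¹ ^ N
  set c := ((σ • Algebra.leftMulMatrix bu f).charpoly.coeff i)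
  have hent : c ∈ O' := by
    refine charpoly_coeff_mem O' _ (fun l j => ?_) i
    show ((σ * Algebra.leftMulMatrix bu f l j : K⟮P.x⟯) : F) ∈ v.toValuationSubring
    rw [← ordGE_zero_iff_mem, Algebra.leftMulMatrix_eq_repr_mul]
    have hcoord := ordGE_coeff_of_reduced (transcendental_inv P.trans)
      {w : Place K F | 0 < w.ord P.x⁻¹} (fun _ h => h) B.u
      (fun l w hw => B.ordGE_u l (by
        have hw' : 0 < w.ord P.x⁻¹ := hw
        rw [w.ord_inv] at hw'; omega))
      (fun c hc => B.reduced_infty P.trans c fun w hw => by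
        simpa [Place.ord_inv] using
          hc w (show 0 < w.ord P.x⁻¹ by rw [w.ord_inv]; omega))
      (fun l => ((bu.repr (f * bu j) l : K⟮P.x⟯) : F))
      (fun l => by rw [adjoin_simple_inv_eq]; exact (bu.repr (f * bu j) l).2) (-(N : ℤ))
      (fun w hw => by
        have hw' : 0 < w.ord P.x⁻¹ := hw
        rw [w.ord_inv] at hw' ⊢
        rw [show ∑ l, ((bu.repr (f * bu j) l : K⟮P.x⟯) : F) * B.u l = f * B.u j by
          rw [← hbu j]
          conv_rhs => rw [← bu.sum_repr (f * bu j)]
          simp [IntermediateField.smul_def, hbu]]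
        simpa using (hf.2 w (by omega)).mul (B.ordGE_u j (v := w) (by omega)))
      l v (by rw [v.ord_inv]; omega)
    have hσ : OrdGE v (-((N : ℤ) * v.ord P.x)) ((σ : K⟮P.x⟯) : F) :=
      ordGE_of_le (by simp [σ, ord_pow, v.ord_inv])
    rw [v.ord_inv, neg_mul_neg] at hcoord
    simpa using hσ.mul hcoord
  have hscale := charpoly_smul_coeff (Algebra.leftMulMatrix bu f) σ i
  simp only [Fintype.card_fin, P.finrank_eq] at hscale
  have hσ0 : σ ≠ 0 := pow_ne_zero _ (inv_ne_zero fun h0 => hx0 (congrArg Subtype.val h0))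
  have hc : OrdGE v 0 ((c : K⟮P.x⟯) : F) := ordGE_zero_iff_mem.2 hent
  have he : (c : F) * (P.x⁻¹ ^ N) ^ i = (P.x⁻¹ ^ N) ^ n * aeval P.x a := by
    have := congrArg (fun z : K⟮P.x⟯ => (z : F)) hscale
    rw [← hchi, P.chi_eq_of_basis bu]
    simpa [σ, c] using this
  have h1 : OrdGE v ((N : ℤ) * i * -v.ord P.x) ((P.x⁻¹ ^ N) ^ n * aeval P.x a) := by
    rw [← he]
    refine (hc.mul (ordGE_of_le (ord_pow v (P.x⁻¹ ^ N) i).ge)).mono ?_
    rw [ord_pow, v.ord_inv]
    ring_nf; rfl
  obtain ⟨hao, hane⟩ := ord_aeval_of_neg hvx ha0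
  have hpne : (P.x⁻¹ ^ N) ^ n ≠ 0 := pow_ne_zero _ (pow_ne_zero _ (inv_ne_zero hx0))
  have h2 := h1.le_ord (mul_ne_zero hpne hane)
  rw [v.ord_mul hpne hane, hao, ord_pow, ord_pow, v.ord_inv] at h2
  have h3 : ((a.natDegree : ℕ) : ℤ) ≤ ((n : ℤ) - i) * N := by nlinarith
  have h4 : (((n - i) * N : ℕ) : ℤ) = ((n : ℤ) - i) * N := by
    push_cast [Nat.cast_sub hi]; rfl
  omega

end Pres

end FLTAgent.Jac27.Spread
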