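import Fermat.Agent.Jac27.Spread.Cert
import Fermat.Agent.Jac27.Spread.Presentation

/-!
# Irreducibility of the relation after specialisation

A factorisation into monic factors has coefficients of bounded degree, so its absence is witnessed
by finitely many constants.
-/

set_option autoImplicit false
set_option linter.style.haveILetI false
set_option linter.unusedSectionVars false

noncomputable section

open scoped Classical

namespace FLTAgent.Jac27.Spread

open AlgebraicCurve FLTAgent.Curves Polynomial IntermediateField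

universe u v

/-- The monic relation with lower coefficients `φ`. -/
def relPoly {S : Type*} [CommRing S] {n : ℕ} (φ : Fin n → S) : S[X] :=
  X ^ n + ∑ j : Fin n, C (φ j) * X ^ (j : ℕ)

theorem relPoly_monic {S : Type*} [CommRing S] {n : ℕ} (φ : Fin n → S) : (relPoly φ).Monic :=
  monic_X_pow_add (by
    refine (degree_sum_le _ _).trans_lt ((Finset.sup_lt_iff (WithBot.bot_lt_coe n)).2 fun j _ => ?_)
    exact (degree_C_mul_X_pow_le _ _).trans_lt (WithBot.coe_lt_coe.2 j.2))

theorem relPoly_natDegree {S : Type*} [CommRing S] [Nontrivial S] {n : ℕ} (φ : Fin n → S) :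
    (relPoly φ).natDegree = n := by
  rw [relPoly, natDegree_add_eq_left_of_degree_lt, natDegree_X_pow]
  rw [degree_X_pow]
  refine (degree_sum_le _ _).trans_lt ((Finset.sup_lt_iff (WithBot.bot_lt_coe n)).2 fun j _ => ?_)
  exact (degree_C_mul_X_pow_le _ _).trans_lt (WithBot.coe_lt_coe.2 j.2)

theorem relPoly_map {S T : Type*} [CommRing S] [CommRing T] (f : S →+* T) {n : ℕ}
    (φ : Fin n → S) : (relPoly φ).map f = relPoly (f ∘ φ) := by
  simp [relPoly, Polynomial.map_sum]

theorem coeff_sum_C_mul_X_pow {S : Type*} [CommRing S] {N : ℕ} (f : Fin N → S) (i : Fin N) :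
    (∑ j : Fin N, C (f j) * X ^ (j : ℕ)).coeff i = f i := by
  rw [finsetSum_coeff, Finset.sum_eq_single i]
  · simp
  · intro j _ hj
    rw [coeff_C_mul_X_pow, if_neg fun h => hj (Fin.ext h.symm)]
  · simp

theorem coeff_C_pow {S : Type*} [CommRing S] (p : S[X][X]) :
    p = ∑ j : Fin (p.natDegree + 1), C (p.coeff j) * X ^ (j : ℕ) := by
  conv_lhs => rw [p.as_sum_range_C_mul_X_pow, Finset.sum_range]

/-- A polynomial in `X` and `Y` with monic leading term in `Y`. -/
def monicOf {S : Type*} [CommRing S] {a N : ℕ} (c : Fin a × Fin (N + 1) → S) : S[X][X] :=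
  relPoly fun j : Fin a => ∑ l : Fin (N + 1), C (c (j, l)) * X ^ (l : ℕ)

theorem monicOf_map {S T : Type*} [CommRing S] [CommRing T] (f : S →+* T) {a N : ℕ}
    (c : Fin a × Fin (N + 1) → S) : (monicOf c).map (mapRingHom f) = monicOf (f ∘ c) := by
  rw [monicOf, relPoly_map, monicOf]
  congr 1
  funext j
  simp [Polynomial.map_sum]

theorem exists_monicOf {S : Type*} [CommRing S] [Nontrivial S] {p : S[X][X]} (hp : p.Monic)
    {N : ℕ} (hN : ∀ j, (p.coeff j).natDegree ≤ N) :
    ∃ c : Fin p.natDegree × Fin (N + 1) → S, monicOf c = p := by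
  refine ⟨fun z => (p.coeff z.1).coeff z.2, Eq.trans ?_ hp.as_sum.symm⟩
  rw [monicOf, relPoly, Finset.sum_range]
  refine congrArg₂ (· + ·) rfl (Finset.sum_congr rfl fun j _ => ?_)
  refine congrArg (fun q => C q * X ^ (j : ℕ)) ?_
  exact ((p.coeff j).as_sum_range_C_mul_X_pow' (Nat.lt_succ_of_le (hN j))).trans
    (Finset.sum_range _) |>.symm

theorem natDegree_coeff_le_swap {S : Type*} [CommRing S] (p : S[X][X]) (j : ℕ) :
    (p.coeff j).natDegree ≤ (Bivariate.swap p).natDegree := by
  rw [natDegree_le_iff_coeff_eq_zero]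
  intro l hl
  have hcoeff : ∀ q : S[X][X], ((Bivariate.swap q).coeff l).coeff j = (q.coeff j).coeff l := by
    intro q
    induction q using Polynomial.induction_on' with
    | add a b ha hb => simp only [map_add, coeff_add, ha, hb]
    | monomial a f =>
      induction f using Polynomial.induction_on' with
      | add f g hf hg => simp only [map_add, coeff_add, hf, hg]
      | monomial b r =>
        rw [Bivariate.swap_monomial_monomial]
        simp only [coeff_monomial]
        split_ifs <;> simp [coeff_monomial, *]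
  rw [← hcoeff, coeff_eq_zero_of_natDegree_lt hl, coeff_zero]

theorem natDegree_swap_le {S : Type*} [CommRing S] (p : S[X][X]) {N : ℕ}
    (h : ∀ j, (p.coeff j).natDegree ≤ N) : (Bivariate.swap p).natDegree ≤ N := by
  refine natDegree_le_iff_coeff_eq_zero.2 fun l hl => ?_
  ext j
  have hh := natDegree_coeff_le_swap (Bivariate.swap p) l
  rw [Bivariate.swap_swap_apply] at hh
  conv_lhs => rw [← Bivariate.swap_swap_apply p]
  by_contra hne
  have : ∀ q : S[X][X], ((Bivariate.swap q).coeff l).coeff j = (q.coeff j).coeff l := by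
    intro q
    induction q using Polynomial.induction_on' with
    | add a b ha hb => simp only [map_add, coeff_add, ha, hb]
    | monomial a f =>
      induction f using Polynomial.induction_on' with
      | add f g hf hg => simp only [map_add, coeff_add, hf, hg]
      | monomial b r =>
        rw [Bivariate.swap_monomial_monomial]
        simp only [coeff_monomial]
        split_ifs <;> simp [coeff_monomial, *]
  rw [Bivariate.swap_swap_apply, this, coeff_eq_zero_of_natDegree_lt (lt_of_le_of_lt (h j) hl),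
    coeff_zero] at hne
  exact hne rfl

/-- Factors of a polynomial have coefficients of no larger degree. -/
theorem natDegree_coeff_le_of_mul {S : Type*} [CommRing S] [IsDomain S] {p G H : S[X][X]}
    (hp : p ≠ 0) (h : G * H = p) {N : ℕ} (hN : ∀ j, (p.coeff j).natDegree ≤ N) (j : ℕ) :
    (G.coeff j).natDegree ≤ N ∧ (H.coeff j).natDegree ≤ N := by
  have h0 := natDegree_swap_le p hN
  have hG : G ≠ 0 := by rintro rfl; exact hp (by rw [← h, zero_mul])
  have hH : H ≠ 0 := by rintro rfl; exact hp (by rw [← h, mul_zero])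
  rw [← h, map_mul, natDegree_mul ((map_ne_zero_iff _ Bivariate.swap.injective).2 hG)
    ((map_ne_zero_iff _ Bivariate.swap.injective).2 hH)] at h0
  exact ⟨(natDegree_coeff_le_swap G j).trans (by omega),
    (natDegree_coeff_le_swap H j).trans (by omega)⟩

theorem Pres.relPoly_no_factor {K F : Type*} [Field K] [Field F] [Algebra K F] {n : ℕ}
    {φ : Fin n → K[X]} (P : Pres K F n φ) {G H : K[X][X]} (hG : G.Monic) (hH : H.Monic)
    (hG0 : 0 < G.natDegree) (hH0 : 0 < H.natDegree) : G * H ≠ relPoly φ := by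
  intro h
  have hdeg : G.natDegree + H.natDegree = n := by
    rw [← hG.natDegree_mul hH, h, relPoly_natDegree]
  have key : ∀ Q : K[X][X], Q.Monic → Q.natDegree < n → eval₂ (aeval P.x).toRingHom P.y Q ≠ 0 := by
    intro Q hQ hlt h0
    rw [eval₂_eq_sum_range' _ hlt, Finset.sum_range] at h0
    have h1 := P.ev_injective (g := fun j : Fin n => Q.coeff j) h0
    have h2 := congrFun h1 ⟨Q.natDegree, hlt⟩
    simp [hQ.coeff_natDegree] at h2
  have h0 : eval₂ (aeval P.x).toRingHom P.y (G * H) = 0 := by
    rw [h, relPoly, eval₂_add, eval₂_finsetSum, eval₂_pow, eval₂_X]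
    simp only [eval₂_mul, eval₂_C, eval₂_pow, eval₂_X]
    exact P.rel
  rw [eval₂_mul, mul_eq_zero] at h0
  rcases h0 with h0 | h0
  · exact key G hG (by omega) h0
  · exact key H hH (by omega) h0

section Equations

variable {R : Type*} [CommRing R] {n : ℕ}

/-- The equations for a factorisation into monic factors of degrees `a` and `b`. -/
def facEqn (ψ : Fin n → R[X]) (a b N : ℕ) (t : ℕ × ℕ) :
    MvPolynomial ((Fin a ⊕ Fin b) × Fin (N + 1)) R :=
  ((monicOf (fun z : Fin a × Fin (N + 1) =>
      (MvPolynomial.X (Sum.inl z.1, z.2) : MvPolynomial ((Fin a ⊕ Fin b) × Fin (N + 1)) R)) *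
    monicOf (fun z : Fin b × Fin (N + 1) => MvPolynomial.X (Sum.inr z.1, z.2))
    - relPoly (mapRingHom MvPolynomial.C ∘ ψ)).coeff t.1).coeff t.2

variable {S : Type*} [CommRing S] (f : R →+* S) (ψ : Fin n → R[X]) (a b N : ℕ)
  (c : (Fin a ⊕ Fin b) × Fin (N + 1) → S)

theorem facEqn_eval (t : ℕ × ℕ) :
    MvPolynomial.eval₂ f c (facEqn ψ a b N t) =
      ((monicOf (fun z : Fin a × Fin (N + 1) => c (Sum.inl z.1, z.2)) *
        monicOf (fun z : Fin b × Fin (N + 1) => c (Sum.inr z.1, z.2)) -
          relPoly (mapRingHom f ∘ ψ)).coeff t.1).coeff t.2 := by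
  have hC : (MvPolynomial.eval₂Hom f c).comp MvPolynomial.C = f :=
    RingHom.ext fun r => MvPolynomial.eval₂Hom_C f c r
  rw [← MvPolynomial.coe_eval₂Hom, facEqn, ← coeff_map, ← coe_mapRingHom, ← coeff_map,
    Polynomial.map_sub, Polynomial.map_mul, monicOf_map, monicOf_map, relPoly_map,
    show (mapRingHom (MvPolynomial.eval₂Hom f c)) ∘ (mapRingHom MvPolynomial.C ∘ ψ) =
      mapRingHom f ∘ ψ from funext fun j => by
        simp only [Function.comp_apply, coe_mapRingHom, Polynomial.map_map, hC],
    show (MvPolynomial.eval₂Hom f c) ∘ (fun z : Fin a × Fin (N + 1) =>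
      (MvPolynomial.X (Sum.inl z.1, z.2) : MvPolynomial ((Fin a ⊕ Fin b) × Fin (N + 1)) R)) =
        fun z => c (Sum.inl z.1, z.2) from funext fun z => MvPolynomial.eval₂Hom_X' f c _,
    show (MvPolynomial.eval₂Hom f c) ∘ (fun z : Fin b × Fin (N + 1) =>
      (MvPolynomial.X (Sum.inr z.1, z.2) : MvPolynomial ((Fin a ⊕ Fin b) × Fin (N + 1)) R)) =
        fun z => c (Sum.inr z.1, z.2) from funext fun z => MvPolynomial.eval₂Hom_X' f c _]

theorem facEqn_eval_iff :
    (∀ t, MvPolynomial.eval₂ f c (facEqn ψ a b N t) = 0) ↔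
      monicOf (fun z : Fin a × Fin (N + 1) => c (Sum.inl z.1, z.2)) *
        monicOf (fun z : Fin b × Fin (N + 1) => c (Sum.inr z.1, z.2)) =
          relPoly (mapRingHom f ∘ ψ) := by
  constructor
  · intro h
    refine sub_eq_zero.1 (Polynomial.ext fun i => Polynomial.ext fun l => ?_)
    rw [coeff_zero, coeff_zero, ← facEqn_eval f ψ a b N c (i, l)]
    exact h _
  · intro h t
    rw [facEqn_eval, h, sub_self, coeff_zero, coeff_zero]

theorem facEqn_map (t : ℕ × ℕ) :
    MvPolynomial.map f (facEqn ψ a b N t) = facEqn (mapRingHom f ∘ ψ) a b N t := by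
  have h := facEqn_eval (MvPolynomial.C.comp f) ψ a b N
    (fun z => (MvPolynomial.X z : MvPolynomial ((Fin a ⊕ Fin b) × Fin (N + 1)) S)) t
  have hφ : mapRingHom (MvPolynomial.C.comp f) ∘ ψ =
      mapRingHom (MvPolynomial.C (σ := (Fin a ⊕ Fin b) × Fin (N + 1))) ∘ (mapRingHom f ∘ ψ) := by
    funext j; simp [Polynomial.map_map]
  rw [hφ] at h
  refine Eq.trans ?_ h
  clear h hφ
  generalize facEqn ψ a b N t = q
  induction q using MvPolynomial.induction_on <;> simp_all

end Equations

/-- Irreducibility persists where finitely many constants are integral. -/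
theorem exists_irreducible_cert {L : Type u} [Field L] [IsAlgClosed L] {F : Type v} [Field F]
    [Algebra L F] {n : ℕ} {φ : Fin n → L[X]} (P : Pres L F n φ) :
    ∃ T : Finset L, ∀ (R k : Type u) [CommRing R] [Field k] (iL : R →+* L) (ik : R →+* k),
      Function.Injective iL → ↑T ⊆ Set.range iL → ∀ φR : Fin n → R[X],
      mapRingHom iL ∘ φR = φ → Irreducible (relPoly (mapRingHom ik ∘ φR)) := by
  set N := Finset.univ.sup fun j : Fin n => (φ j).natDegree
  have hno : ∀ a : {a : Fin n // 0 < (a : ℕ)},
      ∀ c : (Fin (a.1 : ℕ) ⊕ Fin (n - a.1)) × Fin (N + 1) → L,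
      ¬ ∀ t, MvPolynomial.eval c (facEqn φ (a.1 : ℕ) (n - a.1) N t) = 0 := by
    intro a c hc
    have h := (facEqn_eval_iff (RingHom.id L) φ _ _ N c).1 hc
    rw [show mapRingHom (RingHom.id L) ∘ φ = φ by simp [mapRingHom_id]] at h
    refine P.relPoly_no_factor (relPoly_monic _) (relPoly_monic _) ?_ ?_ h
    · rw [relPoly_natDegree]; exact a.2
    · rw [relPoly_natDegree]; have := a.1.2; omega
  choose T hT using fun a => exists_cert_none (facEqn φ (a : {a : Fin n // 0 < (a : ℕ)}).1.1
    (n - a.1.1) N) (hno a)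
  refine ⟨Finset.univ.biUnion T, fun R k _ _ iL ik hinj hsub φR hφ => ?_⟩
  simp only [Finset.coe_biUnion, Finset.coe_univ, Set.mem_univ, Set.iUnion_true,
    Set.iUnion_subset_iff] at hsub
  have hne1 : relPoly (mapRingHom ik ∘ φR) ≠ 1 := fun h1 => by
    have := congrArg natDegree h1
    rw [relPoly_natDegree, natDegree_one] at this
    exact P.pos.ne' this
  refine (relPoly_monic _).irreducible_iff_natDegree.2 ⟨hne1, fun G H hG hH hGH => ?_⟩
  by_contra hcon
  push Not at hcon
  have hdeg : G.natDegree + H.natDegree = n := by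
    rw [← hG.natDegree_mul hH, hGH, relPoly_natDegree]
  have hcoef : ∀ j, ((relPoly (mapRingHom ik ∘ φR)).coeff j).natDegree ≤ N := by
    intro j
    rw [relPoly, coeff_add, coeff_X_pow, finsetSum_coeff]
    refine (natDegree_add_le _ _).trans (max_le (by split_ifs <;> simp) ?_)
    refine natDegree_sum_le_of_forall_le _ _ fun i _ => ?_
    rw [coeff_C_mul_X_pow]
    split_ifs
    · refine le_trans natDegree_map_le ?_
      rw [← natDegree_map_eq_of_injective hinj, ← coe_mapRingHom,
        show mapRingHom iL (φR i) = φ i from congrFun hφ i]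
      exact Finset.le_sup (f := fun j : Fin n => (φ j).natDegree) (Finset.mem_univ i)
    · simp
  have hb := natDegree_coeff_le_of_mul (relPoly_monic _).ne_zero hGH hcoef
  obtain ⟨cG, hcG⟩ := exists_monicOf hG fun j => (hb j).1
  obtain ⟨cH, hcH⟩ := exists_monicOf hH fun j => (hb j).2
  have hH' : n - G.natDegree = H.natDegree := by omega
  refine hT ⟨⟨G.natDegree, by omega⟩, Nat.pos_of_ne_zero hcon.1⟩ R k iL ik hinj (hsub _)
    (fun t => facEqn φR G.natDegree (n - G.natDegree) N t)
    (fun t => by rw [facEqn_map, hφ])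
    (fun z => Sum.elim (fun i => cG (i, z.2)) (fun i => cH (Fin.cast hH' i, z.2)) z.1)
    ((facEqn_eval_iff ik φR _ _ N _).2 ?_)
  show monicOf cG * monicOf (fun z : Fin (n - G.natDegree) × Fin (N + 1) =>
    cH (Fin.cast hH' z.1, z.2)) = _
  refine Eq.trans ?_ hGH
  rw [hcG]
  refine congrArg (G * ·) (Eq.trans ?_ hcH)
  clear * - hH'
  generalize H.natDegree = b at hH' cH
  subst hH'
  rfl

end FLTAgent.Jac27.Spread
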