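import Mathlib

/-!
# Multiplication matrices of a monogenic algebra, universally

The relation is `Y ^ n + ∑ φ j * Y ^ j`; all constructions commute with ring homomorphisms.
-/

set_option autoImplicit false

noncomputable section

namespace FLTAgent.Jac27.Spread

open Polynomial

universe w

variable {S : Type*} [CommRing S] {n : ℕ}

/-- The companion matrix. -/
def comp (φ : Fin n → S) : Matrix (Fin n) (Fin n) S :=
  Matrix.of fun i j =>
    if (j : ℕ) + 1 < n then (if (i : ℕ) = (j : ℕ) + 1 then 1 else 0) else -φ i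

/-- The matrix of multiplication by `∑ g j * Y ^ j`. -/
def mulMat (φ g : Fin n → S) : Matrix (Fin n) (Fin n) S :=
  ∑ j : Fin n, g j • comp φ ^ (j : ℕ)

/-- The coefficients of the characteristic polynomial of `∑ g j * Y ^ j`. -/
def chiCoeff (φ g : Fin n → S) (i : ℕ) : S := (mulMat φ g).charpoly.coeff i

/-- The matrix of the trace form on the powers of `Y`. -/
def trMat (φ : Fin n → S) : Matrix (Fin n) (Fin n) S :=
  Matrix.of fun i j => (comp φ ^ ((i : ℕ) + (j : ℕ))).trace

variable {T : Type*} [CommRing T] (f : S →+* T)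

theorem comp_map (φ : Fin n → S) : (comp φ).map f = comp (f ∘ φ) := by
  ext i j
  simp only [comp, Matrix.map_apply, Matrix.of_apply, Function.comp_apply]
  split_ifs <;> simp

theorem mulMat_map (φ g : Fin n → S) : (mulMat φ g).map f = mulMat (f ∘ φ) (f ∘ g) := by
  rw [← RingHom.mapMatrix_apply, mulMat, map_sum, mulMat]
  refine Finset.sum_congr rfl fun j _ => ?_
  rw [← comp_map]
  ext a b
  rw [← RingHom.mapMatrix_apply, ← map_pow]
  simp [RingHom.mapMatrix_apply, Matrix.map_apply]

theorem chiCoeff_map (φ g : Fin n → S) (i : ℕ) :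
    f (chiCoeff φ g i) = chiCoeff (f ∘ φ) (f ∘ g) i := by
  rw [chiCoeff, chiCoeff, ← mulMat_map, Matrix.charpoly_map, coeff_map]

theorem trMat_map (φ : Fin n → S) : (trMat φ).map f = trMat (f ∘ φ) := by
  ext i j
  simp only [trMat, Matrix.map_apply, Matrix.of_apply]
  rw [← comp_map, ← RingHom.mapMatrix_apply, ← map_pow]
  exact AddMonoidHom.map_trace f.toAddMonoidHom _

/-- Scaling a matrix scales the coefficients of the characteristic polynomial. -/
theorem charpoly_smul_coeff {ι : Type*} [Fintype ι] [DecidableEq ι] (M : Matrix ι ι S) (s : S)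
    (i : ℕ) :
    (s • M).charpoly.coeff i * s ^ i = s ^ Fintype.card ι * M.charpoly.coeff i := by
  have h : (s • M).charpoly.comp (C s * X) = C (s ^ Fintype.card ι) * M.charpoly := by
    show (compRingHom (C s * X)) (s • M).charpoly = _
    rw [Matrix.charpoly, RingHom.map_det, C_pow, Matrix.charpoly, ← Matrix.det_smul]
    congr 1
    ext a b
    rcases eq_or_ne a b with rfl | hab
    · simp [Matrix.charmatrix_apply_eq, mul_sub]
    · simp [Matrix.charmatrix_apply_ne _ _ _ hab]
  have h2 := congrArg (fun p : S[X] => p.coeff i) h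
  rwa [comp_C_mul_X_coeff, coeff_C_mul] at h2

/-- If all entries lie in a subring, so do the coefficients of the characteristic polynomial. -/
theorem charpoly_coeff_mem {ι : Type*} [Fintype ι] [DecidableEq ι] (O : Subring S)
    (M : Matrix ι ι S) (h : ∀ a b, M a b ∈ O) (i : ℕ) : M.charpoly.coeff i ∈ O := by
  let M₀ : Matrix ι ι O := Matrix.of fun a b => ⟨M a b, h a b⟩
  rw [show M = M₀.map O.subtype from rfl, Matrix.charpoly_map, coeff_map]
  exact SetLike.coe_mem _

end FLTAgent.Jac27.Spread
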