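import Fermat.Agent.Specialization.Valuation
import Mathlib.NumberTheory.Padics.Complex
import Mathlib.FieldTheory.FinTrdeg
import Mathlib.Algebra.MvPolynomial.Cardinal
import Mathlib.RingTheory.AlgebraicIndependent.AlgebraicClosure
import Mathlib.Topology.Algebra.Module.Cardinality

/-!
# Places of large residue characteristic on fields of finite transcendence degree

A field algebraic over a finitely generated one embeds in an algebraic closure of the `p`-adic
numbers with given finitely many elements integral, for arbitrarily large primes `p`: send a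
transcendence basis to algebraically independent `p`-adic integers with prescribed residues.
-/

set_option autoImplicit false
set_option linter.style.haveILetI false

noncomputable section

namespace FLTAgent.Jac27.Spread

open Polynomial FLTAgent.Specialization
open scoped NNReal

universe u

theorem padicInt_not_countable (p : ℕ) [Fact p.Prime] : ¬ Countable ℤ_[p] := by
  intro h
  haveI : Countable ℚ_[p] := by
    refine Function.Surjective.countable
      (f := fun z : ℤ_[p] × ℤ_[p] => algebraMap ℤ_[p] ℚ_[p] z.1 / algebraMap ℤ_[p] ℚ_[p] z.2)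
      fun y => ?_
    obtain ⟨a, b, -, rfl⟩ := IsFractionRing.div_surjective ℤ_[p] y
    exact ⟨(a, b), rfl⟩
  exact (Cardinal.aleph0_lt_continuum.trans_le
    (continuum_le_cardinal_of_nontriviallyNormedField ℚ_[p])).not_ge Cardinal.mk_le_aleph0

/-- Algebraically independent `p`-adic integers with prescribed residues. -/
theorem exists_independent_padicInt (p : ℕ) [Fact p.Prime] (ι : Type u) [Finite ι] (a : ι → ℤ) :
    ∃ x : ι → ℤ_[p], AlgebraicIndependent ℤ x ∧
      ∀ i, PadicInt.toZMod (x i) = (a i : ZMod p) := by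
  revert a
  induction ι using Finite.induction_empty_option with
  | of_equiv e ih =>
    intro a
    obtain ⟨x, hx, hxa⟩ := ih (a ∘ e)
    refine ⟨x ∘ e.symm, hx.comp _ e.symm.injective, fun i => ?_⟩
    simpa using hxa (e.symm i)
  | h_empty =>
    intro a
    exact ⟨fun i => i.elim, algebraicIndependent_empty_type_iff.2
      (FaithfulSMul.algebraMap_injective ℤ ℤ_[p]), fun i => i.elim⟩
  | h_option ih =>
    rename_i α _
    intro a
    obtain ⟨x, hx, hxa⟩ := ih (a ∘ some)
    haveI : Countable α := Finite.to_countable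
    haveI : Countable (Algebra.adjoin ℤ (Set.range x)) := by
      haveI : Countable (MvPolynomial α ℤ) :=
        Cardinal.mk_le_aleph0_iff.1 (MvPolynomial.cardinalMk_le_max_lift.trans (by
          simp))
      rw [Algebra.adjoin_range_eq_range_aeval]
      exact (Set.countable_range (MvPolynomial.aeval (R := ℤ) x)).to_subtype
    set g : ℤ_[p] → ℤ_[p] := fun z => (a none : ℤ_[p]) + (p : ℤ_[p]) * z
    have hg : Function.Injective g := fun z z' h =>
      mul_left_cancel₀ (Nat.cast_ne_zero.2 (Fact.out : p.Prime).ne_zero) (add_left_cancel h)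
    have hc : {z : ℤ_[p] | IsAlgebraic (Algebra.adjoin ℤ (Set.range x)) (g z)}.Countable :=
      (Algebraic.countable (Algebra.adjoin ℤ (Set.range x)) ℤ_[p]).preimage hg
    obtain ⟨z, hz⟩ : ∃ z, ¬ IsAlgebraic (Algebra.adjoin ℤ (Set.range x)) (g z) := by
      by_contra! hall
      exact padicInt_not_countable p
        (Set.countable_univ_iff.1 (hc.mono fun z _ => hall z))
    refine ⟨fun o => o.elim (g z) x, (hx.option_iff_transcendental _).2 hz, fun o => ?_⟩
    cases o with
    | none => simp [g]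
    | some i => exact hxa i

theorem exists_eval_ne_zero {ι : Type u} (c : MvPolynomial ι ℤ) (hc : c ≠ 0) :
    ∃ a : ι → ℤ, MvPolynomial.eval a c ≠ 0 := by
  by_contra! h
  exact hc (MvPolynomial.funext fun a => by rw [h, map_zero])

theorem norm_eq_one_of_toZMod_ne {p : ℕ} [Fact p.Prime] {z : ℤ_[p]}
    (h : PadicInt.toZMod z ≠ 0) : ‖z‖ = 1 := by
  refine le_antisymm z.norm_le_one (not_lt.1 fun hlt => h ?_)
  rw [← RingHom.mem_ker, PadicInt.ker_toZMod, IsLocalRing.mem_maximalIdeal,
    PadicInt.mem_nonunits]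
  exact hlt

/-- An embedding in the `p`-adic closure making given finitely many elements integral. -/
theorem exists_embedding {L : Type u} [Field L] [CharZero L] (S : Set L) (hS : S.Finite)
    (halg : Algebra.IsAlgebraic (IntermediateField.adjoin ℚ S) L) (T : Finset L) (B : ℕ) :
    ∃ (p : ℕ) (_ : Fact p.Prime) (φ : L →+* PadicAlgCl p), B < p ∧ ∀ t ∈ T, ‖φ t‖ ≤ 1 := by
  classical
  haveI : FinTrdeg ℚ L :=
    ⟨⟨IntermediateField.adjoin ℚ S, IntermediateField.fg_adjoin_of_finite hS, halg⟩⟩
  obtain ⟨ι, v, hv⟩ := exists_isTranscendenceBasis' ℤ L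
  haveI : Algebra.IsAlgebraic ℤ ℚ := IsLocalization.isAlgebraic ℚ (nonZeroDivisors ℤ)
  haveI : Finite ι := finite_of_algebraicIndependent (K := ℚ) (hv.1.extendScalars ℚ)
  haveI := hv.isAlgebraic
  letI : Algebra (MvPolynomial ι ℤ) L := (MvPolynomial.aeval v).toRingHom.toAlgebra
  haveI : Algebra.IsAlgebraic (MvPolynomial ι ℤ) L := by
    refine ⟨fun z => ?_⟩
    refine IsAlgebraic.of_ringHom_of_comp_eq
      (g := RingHom.id L) hv.1.aevalEquiv.toRingHom
      (Algebra.IsAlgebraic.isAlgebraic (R := Algebra.adjoin ℤ (Set.range v)) (RingHom.id L z))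
      hv.1.aevalEquiv.surjective Function.injective_id ?_
    exact RingHom.ext fun q => rfl
  have hmult : ∀ t : L, ∃ y ≠ (0 : MvPolynomial ι ℤ), IsIntegral (MvPolynomial ι ℤ) (y • t) :=
    fun t => (Algebra.IsAlgebraic.isAlgebraic t).exists_integral_multiple
  choose y hy0 hyt using hmult
  obtain ⟨a, ha⟩ := exists_eval_ne_zero (∏ t ∈ T, y t)
    (Finset.prod_ne_zero_iff.2 fun t _ => hy0 t)
  obtain ⟨p, hpB, hp⟩ :=
    Nat.exists_infinite_primes (max B (MvPolynomial.eval a (∏ t ∈ T, y t)).natAbs + 1)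
  haveI : Fact p.Prime := ⟨hp⟩
  obtain ⟨x, hx, hxa⟩ := exists_independent_padicInt p ι a
  let ψ : MvPolynomial ι ℤ →+* PadicAlgCl p :=
    ((algebraMap ℚ_[p] (PadicAlgCl p)).comp (PadicInt.Coe.ringHom : ℤ_[p] →+* ℚ_[p])).comp
      (MvPolynomial.aeval x).toRingHom
  have hψnorm : ∀ q, ‖ψ q‖ = ‖MvPolynomial.aeval x q‖ := fun q =>
    PadicAlgCl.norm_extends p _
  letI : Algebra (MvPolynomial ι ℤ) (PadicAlgCl p) := ψ.toAlgebra
  haveI : Module.IsTorsionFree (MvPolynomial ι ℤ) (PadicAlgCl p) :=
    Module.isTorsionFree_iff_algebraMap_injective.2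
      (((algebraMap ℚ_[p] (PadicAlgCl p)).injective.comp Subtype.val_injective).comp hx)
  haveI : Module.IsTorsionFree (MvPolynomial ι ℤ) L :=
    Module.isTorsionFree_iff_algebraMap_injective.2 hv.1
  let φ : L →ₐ[MvPolynomial ι ℤ] PadicAlgCl p := IsAlgClosed.lift
  refine ⟨p, ‹_›, φ.toRingHom, by omega, fun t ht => ?_⟩
  have hmod : ∀ q, PadicInt.toZMod (MvPolynomial.aeval x q) =
      ((MvPolynomial.eval a q : ℤ) : ZMod p) := by
    intro q
    induction q using MvPolynomial.induction_on with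
    | C n => simp
    | add f g hf hg => simp [hf, hg]
    | mul_X f i hf => simp [hf, hxa]
  have hdvd : ¬ (p : ℤ) ∣ MvPolynomial.eval a (y t) := fun h => by
    have h1 : (p : ℤ) ∣ MvPolynomial.eval a (∏ t ∈ T, y t) := by
      rw [map_prod]
      exact h.trans (Finset.dvd_prod_of_mem _ ht)
    have h2 := Nat.le_of_dvd (Int.natAbs_pos.2 ha) (Int.natCast_dvd.1 h1)
    omega
  have hyn : ‖ψ (y t)‖ = 1 := by
    rw [hψnorm]
    exact norm_eq_one_of_toZMod_ne (by rwa [hmod, Ne, ZMod.intCast_zmod_eq_zero_iff_dvd])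
  obtain ⟨Q, hQm, hQ⟩ := (hyt t).map φ
  by_contra hlt
  rw [not_le] at hlt
  set z := φ (y t • t)
  have hz : ‖φ t‖ = ‖z‖ := by
    have hz' : z = ψ (y t) * φ t := by
      simp only [z]
      rw [Algebra.smul_def, map_mul, φ.commutes]
      rfl
    rw [hz', norm_mul, hyn, one_mul]
  have hz1 : (1 : ℝ≥0) < ‖z‖₊ := by
    rw [← NNReal.coe_lt_coe, NNReal.coe_one, coe_nnnorm, ← hz]; exact hlt
  have hint : z ∈ (Valued.v : Valuation (PadicAlgCl p) ℝ≥0).integer := by
    refine Valuation.Integers.mem_of_integral (Valuation.integer.integers _) ?_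
    let ψ' : MvPolynomial ι ℤ →+* (Valued.v : Valuation (PadicAlgCl p) ℝ≥0).integer :=
      ψ.codRestrict _ fun q => by
        show ‖ψ q‖₊ ≤ 1
        rw [← NNReal.coe_le_coe, coe_nnnorm, hψnorm, NNReal.coe_one]
        exact PadicInt.norm_le_one _
    exact ⟨Q.map ψ', hQm.map _, by rw [eval₂_map]; exact hQ⟩
  exact absurd (show ‖z‖₊ ≤ 1 from hint) (not_le.2 hz1)

/-- The residue field of a valuation subring of an algebraically closed field. -/
theorem isAlgClosed_residue {L : Type u} [Field L] [IsAlgClosed L] (A : ValuationSubring L) :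
    IsAlgClosed (IsLocalRing.ResidueField A) := by
  refine IsAlgClosed.of_exists_root _ fun f hf hirr ↦ ?_
  have hlift : f ∈ Polynomial.lifts (IsLocalRing.residue A) :=
    (Polynomial.lifts_iff_coeff_lifts f).mpr fun n ↦ IsLocalRing.residue_surjective _
  obtain ⟨g, hg, hdeg, hgm⟩ := Polynomial.lifts_and_degree_eq_and_monic hlift hf
  obtain ⟨x, hx⟩ := IsAlgClosed.exists_aeval_eq_zero L g
    (by rw [hdeg]; exact hirr.degree_pos.ne')
  obtain ⟨a, ha⟩ := IsIntegrallyClosed.isIntegral_iff.mp (⟨g, hgm, hx⟩ : IsIntegral A x)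
  refine ⟨IsLocalRing.residue A a, ?_⟩
  rw [← hg, eval_map, eval₂_at_apply, show g.eval a = 0 from ?_, map_zero]
  refine Subtype.coe_injective ?_
  rw [← ha, aeval_algebraMap_apply_eq_algebraMap_eval] at hx
  exact hx

/-- An element of norm at most one of the `p`-adic closure is, modulo elements of smaller norm, a
root of an integer polynomial that is nonzero modulo `p`. -/
theorem exists_int_relation {p : ℕ} [Fact p.Prime] (z : PadicAlgCl p) (hz : ‖z‖ ≤ 1) :
    ∃ N : ℤ[X], N.map (Int.castRingHom (ZMod p)) ≠ 0 ∧ ‖aeval z N‖ < 1 := by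
  classical
  obtain ⟨P, hP0, hPz⟩ := PadicAlgCl.isAlgebraic p |>.isAlgebraic z
  obtain ⟨i₀, hi₀, hmax⟩ := Finset.exists_max_image P.support (fun i => ‖P.coeff i‖)
    (support_nonempty.2 hP0)
  have hc0 : P.coeff i₀ ≠ 0 := mem_support_iff.1 hi₀
  have hle : ∀ i, ‖P.coeff i / P.coeff i₀‖ ≤ 1 := fun i => by
    rw [norm_div, div_le_one (norm_pos_iff.2 hc0)]
    by_cases hi : i ∈ P.support
    · exact hmax i hi
    · rw [notMem_support_iff.1 hi, norm_zero]; exact norm_nonneg _
  let d : ℕ → ℤ_[p] := fun i => ⟨P.coeff i / P.coeff i₀, hle i⟩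
  let n : ℕ → ℤ := fun i => ((PadicInt.toZMod (d i)).val : ℤ)
  have hn : ∀ i, ‖(n i : ℚ_[p]) - P.coeff i / P.coeff i₀‖ < 1 := fun i => by
    have h : PadicInt.toZMod ((n i : ℤ_[p]) - d i) = 0 := by
      rw [map_sub, map_intCast, Int.cast_natCast, ZMod.natCast_zmod_val, sub_self]
    rw [← RingHom.mem_ker, PadicInt.ker_toZMod, IsLocalRing.mem_maximalIdeal,
      PadicInt.mem_nonunits] at h
    exact h
  refine ⟨∑ i ∈ P.support, monomial i (n i), fun h => ?_, ?_⟩
  · have h1 := congrArg (fun Q : (ZMod p)[X] => Q.coeff i₀) h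
    simp only [Polynomial.map_sum, finsetSum_coeff, map_monomial, coeff_monomial,
      Finset.sum_ite_eq', if_pos hi₀, coeff_zero] at h1
    have h2 : d i₀ = 1 := Subtype.ext (by show P.coeff i₀ / P.coeff i₀ = 1; exact div_self hc0)
    rw [eq_intCast, Int.cast_natCast, ZMod.natCast_zmod_val, h2, map_one] at h1
    exact one_ne_zero h1
  · have hzero : ∑ i ∈ P.support,
        algebraMap ℚ_[p] (PadicAlgCl p) (P.coeff i / P.coeff i₀) * z ^ i = 0 := by
      have : aeval z P = ∑ i ∈ P.support, algebraMap ℚ_[p] (PadicAlgCl p) (P.coeff i) * z ^ i := by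
        rw [aeval_def, eval₂_eq_sum, Polynomial.sum_def]
      rw [hPz] at this
      simp only [div_eq_inv_mul, map_mul, mul_assoc, ← Finset.mul_sum, ← this, mul_zero]
    have he : aeval z (∑ i ∈ P.support, monomial i (n i)) = ∑ i ∈ P.support,
        algebraMap ℚ_[p] (PadicAlgCl p) ((n i : ℚ_[p]) - P.coeff i / P.coeff i₀) * z ^ i := by
      simp only [map_sub, sub_mul, Finset.sum_sub_distrib, hzero, sub_zero, map_sum,
        aeval_monomial, map_intCast, eq_intCast]
    rw [he]
    obtain ⟨i, hi, hi'⟩ := IsUltrametricDist.exists_norm_finsetSum_le_of_nonempty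
      (support_nonempty.2 hP0)
      (fun i => algebraMap ℚ_[p] (PadicAlgCl p) ((n i : ℚ_[p]) - P.coeff i / P.coeff i₀) * z ^ i)
    refine hi'.trans_lt ?_
    rw [norm_mul, norm_pow]
    refine (mul_le_of_le_one_right (norm_nonneg _) (pow_le_one₀ (norm_nonneg _) hz)).trans_lt ?_
    exact (PadicAlgCl.norm_extends p _).trans_lt (hn i)

/-- A place of large residue characteristic with algebraically closed residue field, algebraic
over the prime field, at which given elements are integral. -/
theorem exists_place {L : Type u} [Field L] [IsAlgClosed L] [CharZero L] (S : Set L)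
    (hS : S.Finite) (halg : Algebra.IsAlgebraic (IntermediateField.adjoin ℚ S) L) (T : Finset L)
    (B : ℕ) :
    ∃ (p : ℕ) (_ : Fact p.Prime) (k : Type u) (_ : Field k) (_ : IsAlgClosed k)
      (_ : Algebra (ZMod p) k) (_ : Algebra.IsAlgebraic (ZMod p) k) (A : ValuationSubring L)
      (π : A →+* k),
      B < p ∧ Function.Surjective π ∧ RankOne π ∧ ∀ t ∈ T, t ∈ A := by
  obtain ⟨p, hp, φ, hpB, hT⟩ := exists_embedding S hS halg T B
  let A : ValuationSubring L :=
    ((Valued.v : Valuation (PadicAlgCl p) ℝ≥0).comap φ).valuationSubring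
  have hmem : ∀ x : L, x ∈ A ↔ ‖φ x‖ ≤ 1 := fun x => Iff.rfl
  have hres : ∀ x : A, IsLocalRing.residue A x = 0 ↔ ‖φ (x : L)‖ < 1 := fun x => by
    rw [IsLocalRing.residue_eq_zero_iff, ← ValuationSubring.coe_mem_nonunits_iff,
      ValuationSubring.mem_nonunits_iff_or]
    rcases eq_or_ne (x : L) 0 with h | h
    · simp [h]
    · rw [hmem, map_inv₀, norm_inv, or_iff_right h, not_le,
        one_lt_inv₀ (norm_pos_iff.2 ((map_ne_zero φ).2 h))]
  haveI : IsAlgClosed (IsLocalRing.ResidueField A) := isAlgClosed_residue A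
  haveI : CharP (IsLocalRing.ResidueField A) p := by
    refine (CharP.charP_iff_prime_eq_zero hp.out).mpr ?_
    rw [← map_natCast (IsLocalRing.residue A), hres]
    rw [show ((p : A) : L) = (p : L) from map_natCast A.subtype p, map_natCast,
      ← map_natCast (algebraMap ℚ_[p] (PadicAlgCl p)), PadicAlgCl.norm_extends]
    exact Padic.norm_p_lt_one
  letI : Algebra (ZMod p) (IsLocalRing.ResidueField A) := ZMod.algebra _ p
  refine ⟨p, hp, IsLocalRing.ResidueField A, inferInstance, inferInstance, inferInstance,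
    ⟨fun w => ?_⟩, A, IsLocalRing.residue A, hpB, IsLocalRing.residue_surjective, ?_,
    fun t ht => (hmem t).2 (hT t ht)⟩
  · obtain ⟨x, rfl⟩ := IsLocalRing.residue_surjective w
    obtain ⟨N, hN, hNx⟩ := exists_int_relation (φ (x : L)) ((hmem _).1 x.2)
    refine ⟨N.map (Int.castRingHom (ZMod p)), hN, ?_⟩
    rw [aeval_def, eval₂_map, RingHom.ext_int
      ((algebraMap (ZMod p) (IsLocalRing.ResidueField A)).comp (Int.castRingHom (ZMod p)))
      ((IsLocalRing.residue A).comp (algebraMap ℤ A)), ← hom_eval₂, hres]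
    have he : φ ((N.eval₂ (algebraMap ℤ A) x : A) : L) = aeval (φ (x : L)) N := by
      have := hom_eval₂ N (algebraMap ℤ A) (φ.comp A.subtype) x
      rw [RingHom.comp_apply, RingHom.ext_int ((φ.comp A.subtype).comp (algebraMap ℤ A))
        (algebraMap ℤ (PadicAlgCl p))] at this
      exact this
    rw [he]
    exact hNx
  · intro a b ha ha0 hb
    have h1 := (hres a).1 ha
    have h0 : 0 < ‖φ (a : L)‖ := norm_pos_iff.2
      ((map_ne_zero φ).2 fun h => ha0 (Subtype.ext h))
    have hb0 : 0 < ‖φ b‖ := norm_pos_iff.2 ((map_ne_zero φ).2 hb)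
    obtain ⟨n, hn⟩ := exists_pow_lt_of_lt_one hb0 h1
    refine ⟨n, fun h => ?_⟩
    rw [hmem, map_div₀, map_pow, norm_div, norm_pow, div_le_one (pow_pos h0 n)] at h
    exact absurd hn (not_lt.2 h)

end FLTAgent.Jac27.Spread
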