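import Fermat.Agent.Jac27.Spread.Cert
import Fermat.Agent.Jac27.Spread.Presentation

/-!
# The genus does not drop under a specialisation with integral certificates
-/

set_option autoImplicit false
set_option linter.style.haveILetI false
set_option linter.unusedSectionVars false

noncomputable section

open scoped Classical

namespace FLTAgent.Jac27.Spread

open AlgebraicCurve FLTAgent.Curves FLTAgent.Specialization Polynomial IntermediateField

universe u

/-- The polynomial vector with given coefficients. -/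
def polyOf {S : Type*} [CommRing S] {n M : ℕ} (c : Fin n × Fin (M + 1) → S) (j : Fin n) : S[X] :=
  ∑ l : Fin (M + 1), C (c (j, l)) * X ^ (l : ℕ)

theorem polyOf_map {S T : Type*} [CommRing S] [CommRing T] (f : S →+* T) {n M : ℕ}
    (c : Fin n × Fin (M + 1) → S) : mapRingHom f ∘ polyOf c = polyOf (f ∘ c) := by
  funext j
  simp [polyOf, Polynomial.map_sum]

theorem polyOf_coeff {S : Type*} [CommRing S] {n M : ℕ} (c : Fin n × Fin (M + 1) → S) (j : Fin n)
    (l : Fin (M + 1)) : (polyOf c j).coeff l = c (j, l) := by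
  rw [polyOf, finsetSum_coeff, Finset.sum_eq_single l]
  · simp
  · intro b _ hb
    rw [coeff_C_mul_X_pow, if_neg fun h => hb (Fin.ext h.symm)]
  · simp

section Equations

variable {R : Type*} [CommRing R] {n : ℕ}

/-- The conditions on coefficients for the element `∑ c y^j / D` to have poles of order at most
`m` times those of `x`. -/
def eqns (φ : Fin n → R[X]) (D : R[X]) (M m : ℕ) (t : Fin n × ℕ × Bool) :
    MvPolynomial (Fin n × Fin (M + 1)) R :=
  let χ := chiCoeff (mapRingHom MvPolynomial.C ∘ φ)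
    (polyOf fun z => (MvPolynomial.X z : MvPolynomial (Fin n × Fin (M + 1)) R)) t.1
  let Dp := D.map MvPolynomial.C ^ (n - (t.1 : ℕ))
  if t.2.2 then (if (n - (t.1 : ℕ)) * m < t.2.1 then (χ /ₘ Dp).coeff t.2.1 else 0)
  else (χ %ₘ Dp).coeff t.2.1

variable {S : Type*} [CommRing S] (f : R →+* S) (φ : Fin n → R[X]) {D : R[X]} (hD : D.Monic)
  (M m : ℕ) (c : Fin n × Fin (M + 1) → S)

include hD in
theorem eqns_eval (t : Fin n × ℕ × Bool) :
    MvPolynomial.eval₂ f c (eqns φ D M m t) =
      if t.2.2 then (if (n - (t.1 : ℕ)) * m < t.2.1 then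
        (chiCoeff (mapRingHom f ∘ φ) (polyOf c) t.1 /ₘ D.map f ^ (n - (t.1 : ℕ))).coeff t.2.1 else 0)
      else (chiCoeff (mapRingHom f ∘ φ) (polyOf c) t.1 %ₘ D.map f ^ (n - (t.1 : ℕ))).coeff t.2.1 := by
  set h := MvPolynomial.eval₂Hom f c
  have hC : h.comp MvPolynomial.C = f := RingHom.ext fun r => by simp [h]
  have hχ : (chiCoeff (mapRingHom MvPolynomial.C ∘ φ)
      (polyOf fun z => (MvPolynomial.X z : MvPolynomial (Fin n × Fin (M + 1)) R)) t.1).map h =
      chiCoeff (mapRingHom f ∘ φ) (polyOf c) t.1 := by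
    rw [← coe_mapRingHom, chiCoeff_map]
    congr 1
    · funext j
      simp [Polynomial.map_map, hC]
    · rw [polyOf_map]
      congr 1
      funext z
      simp [h]
  have hDp : (D.map MvPolynomial.C ^ (n - (t.1 : ℕ)) :
      (MvPolynomial (Fin n × Fin (M + 1)) R)[X]).Monic := (hD.map _).pow _
  have hmapD : (D.map MvPolynomial.C ^ (n - (t.1 : ℕ)) :
      (MvPolynomial (Fin n × Fin (M + 1)) R)[X]).map h = D.map f ^ (n - (t.1 : ℕ)) := by
    rw [Polynomial.map_pow, Polynomial.map_map, hC]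
  rw [← MvPolynomial.coe_eval₂Hom]
  simp only [eqns]
  split_ifs
  · rw [← coeff_map, map_divByMonic _ hDp, hχ, hmapD]
  · exact map_zero h
  · rw [← coeff_map, map_modByMonic _ hDp, hχ, hmapD]

include hD in
theorem eqns_map (t : Fin n × ℕ × Bool) :
    MvPolynomial.map f (eqns φ D M m t) = eqns (mapRingHom f ∘ φ) (D.map f) M m t := by
  have h1 := eqns_eval (MvPolynomial.C.comp f) φ hD M m
    (fun z => (MvPolynomial.X z : MvPolynomial (Fin n × Fin (M + 1)) S)) t
  have hφ' : mapRingHom (MvPolynomial.C.comp f) ∘ φ =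
      mapRingHom (MvPolynomial.C (σ := Fin n × Fin (M + 1))) ∘ (mapRingHom f ∘ φ) := by
    funext j; simp [Polynomial.map_map]
  rw [hφ', ← Polynomial.map_map] at h1
  refine Eq.trans ?_ h1
  clear h1 hφ'
  generalize eqns φ D M m t = q
  induction q using MvPolynomial.induction_on <;> simp_all

include hD in
theorem eqns_eval_iff :
    (∀ t, MvPolynomial.eval₂ f c (eqns φ D M m t) = 0) ↔
      ∀ i : Fin n, ∃ a : S[X], a.natDegree ≤ (n - (i : ℕ)) * m ∧
        chiCoeff (mapRingHom f ∘ φ) (polyOf c) i = D.map f ^ (n - (i : ℕ)) * a := by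
  nontriviality S
  have hDp : ∀ i : Fin n, (D.map f ^ (n - (i : ℕ))).Monic := fun i => (hD.map f).pow _
  constructor
  · intro h i
    refine ⟨chiCoeff (mapRingHom f ∘ φ) (polyOf c) i /ₘ D.map f ^ (n - (i : ℕ)),
      natDegree_le_iff_coeff_eq_zero.2 fun l hl => ?_, ?_⟩
    · have := h (i, l, true)
      rw [eqns_eval f φ hD] at this
      simpa [hl] using this
    · have h0 : chiCoeff (mapRingHom f ∘ φ) (polyOf c) i %ₘ D.map f ^ (n - (i : ℕ)) = 0 := by
        ext l
        have := h (i, l, false)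
        rw [eqns_eval f φ hD] at this
        simpa using this
      have := modByMonic_add_div (chiCoeff (mapRingHom f ∘ φ) (polyOf c) i)
        (D.map f ^ (n - (i : ℕ)))
      rw [h0, zero_add] at this
      exact this.symm
  · intro h t
    rw [eqns_eval f φ hD]
    obtain ⟨a, ha, he⟩ := h t.1
    have hdiv := div_modByMonic_unique (f := chiCoeff (mapRingHom f ∘ φ) (polyOf c) t.1) a 0
      (hDp t.1) ⟨by rw [zero_add, he], by simpa using bot_lt_iff_ne_bot.2 (degree_ne_bot.2 (hDp t.1).ne_zero)⟩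
    split_ifs with h1 h2
    · rw [hdiv.1]
      exact coeff_eq_zero_of_natDegree_lt (lt_of_le_of_lt ha h2)
    · rfl
    · rw [hdiv.2, coeff_zero]

end Equations

namespace Pres

variable {K F : Type*} [Field K] [Field F] [Algebra K F] {n : ℕ} {φ : Fin n → K[X]}
  (P : Pres K F n φ) (D : K[X])

/-- The element with given coefficients over the denominator `D`. -/
def elem (M : ℕ) : (Fin n × Fin (M + 1) → K) →ₗ[K] F where
  toFun c := P.ev (polyOf c) * (aeval P.x D)⁻¹
  map_add' c c' := by
    rw [← add_mul]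
    congr 1
    simp [Pres.ev, polyOf, add_mul, Finset.sum_add_distrib]
  map_smul' a c := by
    rw [RingHom.id_apply, ← smul_mul_assoc]
    congr 1
    simp [Pres.ev, polyOf, Finset.mul_sum, Finset.sum_mul, Algebra.smul_def, mul_assoc]

theorem elem_injective (hD : D ≠ 0) (M : ℕ) : Function.Injective (P.elem D M) := by
  rw [injective_iff_map_eq_zero]
  intro c hc
  have h := P.ev_injective ((mul_eq_zero.1 (show P.ev (polyOf c) * (aeval P.x D)⁻¹ = 0 from hc)
    ).resolve_right (inv_ne_zero (aeval_ne_zero P.trans hD)))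
  funext z
  rw [← polyOf_coeff c z.1 z.2, congrFun h z.1]
  simp

theorem trace_eq_chi (f : F) : ((Algebra.trace K⟮P.x⟯ F f : K⟮P.x⟯) : F) = -P.chi f (n - 1) := by
  haveI : Nonempty (Fin n) := ⟨⟨0, P.pos⟩⟩
  rw [Algebra.trace_eq_matrix_trace P.basis, Matrix.trace_eq_neg_charpoly_coeff, Fintype.card_fin,
    chi, NegMemClass.coe_neg]
  rfl

theorem trMat_eq (i j : Fin n) :
    polyIn P.x (trMat φ i j) = Algebra.trace K⟮P.x⟯ F (P.y ^ (i : ℕ) * P.y ^ (j : ℕ)) := by
  rw [Algebra.trace_eq_matrix_trace P.basis, ← pow_add]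
  show polyIn P.x ((comp φ ^ ((i : ℕ) + (j : ℕ))).trace) =
    Matrix.trace (P.matOf (P.y ^ ((i : ℕ) + (j : ℕ))))
  rw [map_pow, P.matOf_y]
  have h1 := congrFun (congrFun (trMat_map (polyIn P.x).toRingHom φ) i) j
  exact h1

include P in
theorem det_trMat_ne_zero [CharZero K] : (trMat φ).det ≠ 0 := by
  haveI := P.finiteDimensional
  haveI : CharZero K⟮P.x⟯ := charZero_of_injective_algebraMap (algebraMap K K⟮P.x⟯).injective
  intro h
  have h1 : polyIn P.x (trMat φ).det = 0 := by rw [h, map_zero]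
  rw [AlgHom.map_det] at h1
  refine Algebra.discr_not_zero_of_basis K⟮P.x⟯ P.basis ?_
  rw [Algebra.discr_def]
  refine Eq.trans ?_ h1
  congr 1
  ext i j
  rw [AlgHom.mapMatrix_apply, Matrix.map_apply, P.trMat_eq, Algebra.traceMatrix_apply,
    Algebra.traceForm_apply, P.basis_apply, P.basis_apply]

variable [IsAlgClosed K] [IsFunctionField K F]

/-- Solutions give functions with bounded poles. -/
theorem elem_mem (hD : D ≠ 0) {M m : ℕ} {c : Fin n × Fin (M + 1) → K}
    (h : ∀ i : Fin n, ∃ a : K[X], a.natDegree ≤ (n - (i : ℕ)) * m ∧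
      chiCoeff φ (polyOf c) i = D ^ (n - (i : ℕ)) * a) :
    P.elem D M c ∈ riemannRochSpace ((m : ℤ) • poleDiv K P.x) := by
  choose a ha he using h
  set d := aeval P.x D with hd
  have hd0 : d ≠ 0 := aeval_ne_zero P.trans hD
  set f := P.elem D M c
  have hev : P.ev (polyOf c) = d * f := by
    show _ = d * (P.ev (polyOf c) * d⁻¹)
    field_simp
  refine P.mem_of_equation f m (fun i => if h : i < n then a ⟨i, h⟩ else 0) ?_ fun i hi => by
    simp only [dif_pos hi]; exact ha _
  have h0 := P.sum_chi (P.ev (polyOf c))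
  rw [Finset.sum_range_succ, P.chi_top, one_mul] at h0
  refine (mul_eq_zero.1 (?_ : d ^ n * _ = 0)).resolve_left (pow_ne_zero _ hd0)
  rw [mul_add, Finset.mul_sum]
  refine Eq.trans (congrArg₂ (· + ·) (Finset.sum_congr rfl fun i hi => ?_) ?_) h0
  · have hin := Finset.mem_range.1 hi
    rw [dif_pos hin, P.chi_ev, he ⟨i, hin⟩, map_mul, map_pow, hev, mul_pow, ← hd,
      ← pow_mul_pow_sub d hin.le]
    ring
  · rw [hev, mul_pow]

/-- Functions with bounded poles give solutions. -/
theorem chi_of_elem_mem (hD : D ≠ 0) {M m : ℕ} {c : Fin n × Fin (M + 1) → K}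
    (h : P.elem D M c ∈ riemannRochSpace ((m : ℤ) • poleDiv K P.x)) (i : Fin n) :
    ∃ a : K[X], a.natDegree ≤ (n - (i : ℕ)) * m ∧
      chiCoeff φ (polyOf c) i = D ^ (n - (i : ℕ)) * a := by
  obtain ⟨a, ha, he⟩ := P.chi_of_mem _ m h (i := i) i.2.le
  refine ⟨a, ha, ?_⟩
  set d := aeval P.x D with hd
  have hd0 : d ≠ 0 := aeval_ne_zero P.trans hD
  set f := P.elem D M c
  have hev : P.ev (polyOf c) = polyIn P.x D • f := by
    show _ = polyIn P.x D • (P.ev (polyOf c) * d⁻¹)
    rw [IntermediateField.smul_def, smul_eq_mul, coe_polyIn, ← hd]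
    field_simp
  have hs := charpoly_smul_coeff (P.matOf f) (polyIn P.x D) i
  rw [← map_smul, ← hev, Fintype.card_fin] at hs
  have hs' := congrArg (fun z : K⟮P.x⟯ => (z : F)) hs
  simp only [IntermediateField.coe_mul, SubmonoidClass.coe_pow, coe_polyIn] at hs'
  change P.chi _ _ * d ^ (i : ℕ) = d ^ n * P.chi f i at hs'
  rw [P.chi_ev, he] at hs'
  apply (transcendental_iff_injective.1 P.trans)
  show aeval P.x (chiCoeff φ (polyOf c) i) = aeval P.x (D ^ (n - (i : ℕ)) * a)
  rw [map_mul, map_pow, ← hd]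
  refine mul_right_cancel₀ (pow_ne_zero (i : ℕ) hd0) (hs'.trans ?_)
  rw [mul_right_comm, ← pow_add, Nat.sub_add_cancel i.2.le]

/-- Every function with bounded poles has bounded coordinates over the discriminant. -/
theorem exists_shape {a : K} (ha : a ≠ 0) (hdet : (trMat φ).det = C a * D) {A₀ μ m : ℕ}
    (hA : ∀ i j, ((trMat φ).adjugate i j).natDegree ≤ A₀) (hμ : ∀ j, (φ j).natDegree ≤ μ)
    (hD : D ≠ 0) {f : F} (hf : f ∈ riemannRochSpace ((m : ℤ) • poleDiv K P.x)) :
    ∃ c : Fin n × Fin (A₀ + (m + n * μ) + 1) → K, P.elem D (A₀ + (m + n * μ)) c = f := by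
  set M := A₀ + (m + n * μ)
  have hy : P.y ∈ riemannRochSpace ((μ : ℤ) • poleDiv K P.x) := by
    refine P.mem_of_equation P.y μ (fun i => if h : i < n then φ ⟨i, h⟩ else 0) ?_ fun i hi => by
      simp only [dif_pos hi]
      exact (hμ _).trans (Nat.le_mul_of_pos_left μ (by omega))
    rw [Finset.sum_range, add_comm]
    simpa using P.rel
  have hyl : ∀ l : ℕ, P.y ^ l ∈ riemannRochSpace (((l * μ : ℕ) : ℤ) • poleDiv K P.x) := by
    intro l
    induction l with
    | zero => simpa using one_mem_rrSpace (K := K) (F := F) (D := 0) le_rfl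
    | succ l ih =>
      have := mem_rrSpace_mul ih hy
      rw [← add_smul, ← pow_succ] at this
      rw [Nat.succ_mul, Nat.cast_add]
      exact this
  have htr : ∀ l : Fin n, ∃ p : K[X], p.natDegree ≤ m + n * μ ∧
      polyIn P.x p = Algebra.trace K⟮P.x⟯ F (f * P.y ^ (l : ℕ)) := by
    intro l
    have hmem := mem_rrSpace_mul hf (hyl l)
    rw [← add_smul, ← Nat.cast_add] at hmem
    obtain ⟨p, hp, hpe⟩ := P.chi_of_mem _ _ hmem (i := n - 1) (Nat.sub_le _ _)
    refine ⟨-p, ?_, Subtype.ext ?_⟩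
    · rw [natDegree_neg]
      refine hp.trans ?_
      have := P.pos
      rw [show n - (n - 1) = 1 by omega, one_mul]
      exact Nat.add_le_add_left (Nat.mul_le_mul_right μ l.2.le) m
    · rw [coe_polyIn, map_neg, ← hpe, P.trace_eq_chi]
  choose p hp hpe using htr
  let g : Fin n → K[X] := fun j => C a⁻¹ * ∑ l, (trMat φ).adjugate j l * p l
  have hgdeg : ∀ j, (g j).natDegree ≤ M := fun j =>
    (natDegree_C_mul_le _ _).trans (natDegree_sum_le_of_forall_le _ _ fun l _ =>
      natDegree_mul_le.trans (Nat.add_le_add (hA j l) (hp l)))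
  set cf : Fin n → K⟮P.x⟯ := fun j => P.basis.repr f j
  set Tr := (polyIn P.x).mapMatrix (trMat φ)
  have hsys : Tr.mulVec cf = fun l => polyIn P.x (p l) := funext fun l => by
    rw [hpe l]
    conv_rhs => rw [← P.basis.sum_repr f, Finset.sum_mul, map_sum]
    simp only [Matrix.mulVec, dotProduct]
    refine Finset.sum_congr rfl fun j _ => ?_
    rw [smul_mul_assoc, map_smul, P.basis_apply, smul_eq_mul, mul_comm]
    congr 1
    rw [show Tr l j = polyIn P.x (trMat φ l j) from rfl, P.trMat_eq, mul_comm]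
  have hg : ∀ j, polyIn P.x D * cf j = polyIn P.x (g j) := fun j => by
    have h1 := congrArg (fun v => Tr.adjugate.mulVec v j) hsys
    simp only [Matrix.mulVec_mulVec, Matrix.adjugate_mul, Matrix.smul_mulVec, Matrix.one_mulVec,
      Pi.smul_apply, smul_eq_mul] at h1
    rw [← AlgHom.map_det, hdet, map_mul] at h1
    have h2 : polyIn P.x (C a) ≠ 0 := fun h0 => by
      have := congrArg (fun z : K⟮P.x⟯ => (z : F)) h0
      simp only [coe_polyIn, ZeroMemClass.coe_zero] at this
      exact aeval_ne_zero P.trans (C_ne_zero.2 ha) this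
    refine mul_left_cancel₀ h2 ?_
    rw [← mul_assoc, h1, ← map_mul, ← mul_assoc, ← C_mul, mul_inv_cancel₀ ha, C_1, one_mul,
      map_sum, ← AlgHom.map_adjugate]
    simp [Matrix.mulVec, dotProduct]
  refine ⟨fun z => (g z.1).coeff z.2, ?_⟩
  have hpoly : polyOf (fun z : Fin n × Fin (M + 1) => (g z.1).coeff z.2) = g := funext fun j => by
    conv_rhs => rw [(g j).as_sum_range_C_mul_X_pow' (Nat.lt_succ_of_le (hgdeg j))]
    rw [Finset.sum_range]
    rfl
  show P.ev (polyOf _) * (aeval P.x D)⁻¹ = f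
  rw [hpoly, mul_inv_eq_iff_eq_mul₀ (aeval_ne_zero P.trans hD)]
  conv_rhs => rw [← P.basis.sum_repr f, Finset.sum_mul]
  refine Finset.sum_congr rfl fun j _ => ?_
  rw [← coe_polyIn, ← hg j, IntermediateField.smul_def, P.basis_apply, smul_eq_mul,
    IntermediateField.coe_mul, coe_polyIn]
  ring

end Pres

theorem natDegree_map_comp_le {R S T : Type*} [CommRing R] [CommRing S] [CommRing T] {f : R →+* S}
    (hf : Function.Injective f) (g : R →+* T) (p : R[X]) :
    (mapRingHom g p).natDegree ≤ (mapRingHom f p).natDegree := by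
  rw [coe_mapRingHom, coe_mapRingHom, natDegree_map_eq_of_injective hf p]
  exact natDegree_map_le

theorem adjugate_trMat_map {R S : Type*} [CommRing R] [CommRing S] {n : ℕ} (f : R →+* S)
    (φR : Fin n → R[X]) (i j : Fin n) :
    (trMat (mapRingHom f ∘ φR)).adjugate i j = mapRingHom f ((trMat φR).adjugate i j) := by
  rw [← trMat_map, ← RingHom.mapMatrix_apply, ← RingHom.map_adjugate]
  rfl

theorem rGenus_lower {K F : Type*} [Field K] [Field F] [Algebra K F] [IsAlgClosed K]
    [IsFunctionField K F] (G : Divisor K F) :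
    Divisor.degree G + 1 - rGenus K F ≤ ell G :=
  (exists_riemann (K := K) (F := F)).choose_spec.choose_spec.2.1 G

set_option maxHeartbeats 1000000 in
/-- The genus does not drop where finitely many constants are integral. -/
theorem exists_genus_cert {L : Type u} [Field L] [IsAlgClosed L] [CharZero L] {F : Type*} [Field F]
    [Algebra L F] [IsFunctionField L F] {n : ℕ} {φ : Fin n → L[X]} (P : Pres L F n φ) :
    ∃ T : Finset L, ∀ (R k : Type u) [CommRing R] [Field k] [IsAlgClosed k] (iL : R →+* L)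
      (ik : R →+* k), Function.Injective iL → ↑T ⊆ Set.range iL → ∀ φR : Fin n → R[X],
      mapRingHom iL ∘ φR = φ → ∀ (Fb : Type*) [Field Fb] [Algebra k Fb] [IsFunctionField k Fb]
      (_ : Pres k Fb n (mapRingHom ik ∘ φR)), rGenus L F ≤ rGenus k Fb := by
  have hdet0 := P.det_trMat_ne_zero
  set a := (trMat φ).det.leadingCoeff
  have ha : a ≠ 0 := leadingCoeff_ne_zero.2 hdet0
  set D := C a⁻¹ * (trMat φ).det with hDdef
  have hDm : D.Monic := by
    rw [Monic, hDdef, leadingCoeff_mul, leadingCoeff_C, inv_mul_cancel₀ ha]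
  set A₀ := Finset.univ.sup fun z : Fin n × Fin n => ((trMat φ).adjugate z.1 z.2).natDegree
  set μ := Finset.univ.sup fun j : Fin n => (φ j).natDegree
  obtain ⟨m, hm⟩ : ∃ m : ℕ, rBound L F ≤ (m : ℤ) * n :=
    ⟨(rBound L F).toNat, (Int.self_le_toNat _).trans
      (by exact_mod_cast Nat.le_mul_of_pos_right _ P.pos)⟩
  set M := A₀ + (m + n * μ)
  set V := (riemannRochSpace ((m : ℤ) • poleDiv L P.x)).comap (P.elem D M)
  have hid : ∀ t, MvPolynomial.map (RingHom.id L) (eqns φ D M m t) = eqns φ D M m t := fun t =>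
    MvPolynomial.map_id _
  obtain ⟨T, hT⟩ := exists_cert_dim (eqns φ D M m) V fun c hc => by
    refine P.elem_mem D hDm.ne_zero ?_
    have h := (eqns_eval_iff (RingHom.id L) φ hDm M m c).1 hc
    simpa [Polynomial.mapRingHom_id, Function.comp_def] using h
  refine ⟨T ∪ {a, a⁻¹}, fun R k _ _ _ iL ik hinj hsub φR hφ Fb _ _ _ Q => ?_⟩
  simp only [Finset.coe_union, Finset.coe_insert, Finset.coe_singleton, Set.union_subset_iff,
    Set.insert_subset_iff, Set.singleton_subset_iff] at hsub
  obtain ⟨hTs, ⟨aR, haR⟩, ⟨bR, hbR⟩⟩ := hsub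
  set DR := C bR * (trMat φR).det with hDR
  have hdetmap : ((trMat φR).det).map iL = (trMat φ).det := by
    rw [← coe_mapRingHom, RingHom.map_det, RingHom.mapMatrix_apply, trMat_map, hφ]
  have hDmap : DR.map iL = D := by
    rw [hDR, Polynomial.map_mul, map_C, hbR, hdetmap]
  have hDRm : DR.Monic := monic_of_injective hinj (by rw [hDmap]; exact hDm)
  have hab : ik aR * ik bR = 1 := by
    rw [← map_mul, show aR * bR = 1 from hinj (by
      rw [map_mul, haR, hbR, map_one, mul_inv_cancel₀ ha]), map_one]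
  have hPR : ∀ t, MvPolynomial.map iL (eqns φR DR M m t) = eqns φ D M m t := by
    intro t
    rw [eqns_map iL φR hDRm, hφ, hDmap]
  set Dk := DR.map ik
  have hDk : Dk ≠ 0 := (hDRm.map ik).ne_zero
  set U := (riemannRochSpace ((m : ℤ) • poleDiv k Q.x)).comap (Q.elem Dk M)
  have hU : ∀ c ∈ U, ∀ t, MvPolynomial.eval₂ ik c (eqns φR DR M m t) = 0 := fun c hc =>
    (eqns_eval_iff ik φR hDRm M m c).2 fun i => Q.chi_of_elem_mem Dk hDk hc i
  have hdim := hT R k iL ik hinj hTs (eqns φR DR M m) hPR U hU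
  have hsurj : riemannRochSpace ((m : ℤ) • poleDiv k Q.x) ≤ U.map (Q.elem Dk M) := fun f hf => by
    have hadj : ∀ i j, ((trMat (mapRingHom ik ∘ φR)).adjugate i j).natDegree ≤ A₀ := fun i j => by
      rw [adjugate_trMat_map]
      refine (natDegree_map_comp_le hinj ik _).trans ?_
      rw [← adjugate_trMat_map, hφ]
      exact Finset.le_sup (f := fun z : Fin n × Fin n => ((trMat φ).adjugate z.1 z.2).natDegree)
        (Finset.mem_univ (i, j))
    have hμ : ∀ j, ((mapRingHom ik ∘ φR) j).natDegree ≤ μ := fun j => by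
      refine (natDegree_map_comp_le hinj ik _).trans ?_
      rw [show mapRingHom iL (φR j) = φ j from congrFun hφ j]
      exact Finset.le_sup (f := fun j : Fin n => (φ j).natDegree) (Finset.mem_univ j)
    obtain ⟨c, hc⟩ := Q.exists_shape Dk (a := ik aR)
      (left_ne_zero_of_mul_eq_one hab) (by
        rw [← trMat_map, ← RingHom.mapMatrix_apply, ← RingHom.map_det, coe_mapRingHom]
        show _ = C (ik aR) * DR.map ik
        rw [hDR, Polynomial.map_mul, map_C, ← mul_assoc, ← C_mul, hab, C_1, one_mul])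
      hadj hμ hDk hf
    exact ⟨c, show Q.elem Dk M c ∈ _ by rw [hc]; exact hf, hc⟩
  have h1 : Module.finrank L V ≤ Module.finrank L (riemannRochSpace ((m : ℤ) • poleDiv L P.x)) :=
    LinearMap.finrank_le_finrank_of_injective
      (f := ((P.elem D M).restrict (fun c hc => hc : ∀ c ∈ V, P.elem D M c ∈ _)))
      fun c c' h => Subtype.ext (P.elem_injective D hDm.ne_zero M (congrArg Subtype.val h))
  have h2 := (Submodule.finrank_mono hsurj).trans (Submodule.finrank_map_le (Q.elem Dk M) U)
  have hdegL : Divisor.degree ((m : ℤ) • poleDiv L P.x) = (m : ℤ) * n := by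
    rw [map_zsmul, degree_poleDiv P.trans, P.finrank_eq, smul_eq_mul]
  have hdegk : Divisor.degree ((m : ℤ) • poleDiv k Q.x) = (m : ℤ) * n := by
    rw [map_zsmul, degree_poleDiv Q.trans, Q.finrank_eq, smul_eq_mul]
  have h3 := ell_eq (G := (m : ℤ) • poleDiv L P.x) (by rw [hdegL]; exact hm)
  have h4 := rGenus_lower ((m : ℤ) • poleDiv k Q.x)
  rw [hdegL] at h3
  rw [hdegk] at h4
  simp only [ell] at h3 h4
  omega

end FLTAgent.Jac27.Spread
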