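import Fermat.Agent.Jac27.Spread.Irreducible
import Fermat.Agent.Jac27.Spread.Space
import Fermat.Agent.Specialization.Torsion

/-!
# Models from one relation

The reduction is defined on the quotients of polynomials in `x` and `y` with integral
coefficients; the residual field is cut out by the reduced relation.
-/

set_option autoImplicit false
set_option linter.style.haveILetI false
set_option linter.unusedSectionVars false

noncomputable section

open scoped Classical

namespace FLTAgent.Jac27.Spread

open AlgebraicCurve FLTAgent.Curves FLTAgent.Specialization Polynomial IntermediateField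

universe u v

/-- Evaluation at the coordinates after a map of coefficient rings. -/
def Pres.evalR {K F : Type*} [Field K] [Field F] [Algebra K F] {n : ℕ} {φ : Fin n → K[X]}
    (Q : Pres K F n φ) {R : Type*} [CommRing R] (f : R →+* K) : R[X][X] →+* F :=
  eval₂RingHom ((aeval Q.x).toRingHom.comp (mapRingHom f)) Q.y

theorem Pres.evalR_relPoly {K F : Type*} [Field K] [Field F] [Algebra K F] {n : ℕ}
    {φ : Fin n → K[X]} (Q : Pres K F n φ) {R : Type*} [CommRing R] (f : R →+* K)
    {φR : Fin n → R[X]} (h : mapRingHom f ∘ φR = φ) : Q.evalR f (relPoly φR) = 0 := by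
  subst h
  simp only [Pres.evalR, relPoly, map_add, map_pow, map_sum, map_mul, coe_eval₂RingHom, eval₂_X,
    eval₂_C]
  exact Q.rel

theorem Pres.evalR_eq_zero_transfer {K F k Fb : Type*} [Field K] [Field F] [Algebra K F] [Field k]
    [Field Fb] [Algebra k Fb] {R : Type*} [CommRing R] {n : ℕ} {φR : Fin n → R[X]} (iL : R →+* K)
    (ik : R →+* k) (hinj : Function.Injective iL) (P : Pres K F n (mapRingHom iL ∘ φR))
    (Q : Pres k Fb n (mapRingHom ik ∘ φR)) {p : R[X][X]} (hp : P.evalR iL p = 0) :
    Q.evalR ik p = 0 := by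
  haveI := iL.domain_nontrivial
  set Φ := relPoly φR
  have hdiv := modByMonic_add_div p Φ
  have hdeg : (p %ₘ Φ).natDegree < n := by
    have := natDegree_modByMonic_lt p (relPoly_monic φR) (fun h => by
      have := congrArg natDegree h
      rw [relPoly_natDegree, natDegree_one] at this
      exact P.pos.ne' this)
    rwa [relPoly_natDegree] at this
  have h0 : P.evalR iL (p %ₘ Φ) = 0 := by
    rw [← hdiv, map_add, map_mul, P.evalR_relPoly iL rfl, zero_mul, add_zero] at hp
    exact hp
  rw [Pres.evalR, coe_eval₂RingHom, eval₂_eq_sum_range' _ hdeg, Finset.sum_range] at h0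
  have h1 := P.ev_injective (g := fun j : Fin n => mapRingHom iL ((p %ₘ Φ).coeff j)) h0
  have hr : p %ₘ Φ = 0 := by
    ext1 j
    rcases lt_or_ge j n with hj | hj
    · exact Polynomial.map_injective iL hinj (by simpa using congrFun h1 ⟨j, hj⟩)
    · rw [coeff_eq_zero_of_natDegree_lt (lt_of_lt_of_le hdeg hj), coeff_zero]
  rw [← hdiv, hr, zero_add, map_mul, Q.evalR_relPoly ik rfl, zero_mul]

/-- A field cut out by an irreducible relation. -/
theorem exists_pres_of_irreducible {k : Type u} [Field k] {n : ℕ} (φ : Fin n → k[X]) (hn : 0 < n)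
    (h : Irreducible (relPoly φ)) :
    ∃ (Fb : Type (max u v)) (_ : Field Fb) (_ : Algebra k Fb), Nonempty (Pres k Fb n φ) := by
  have hirr : Irreducible ((relPoly φ).map (algebraMap k[X] (RatFunc k))) :=
    ((relPoly_monic φ).irreducible_iff_irreducible_map_fraction_map (K := RatFunc k)).1 h
  set f := (relPoly φ).map (algebraMap k[X] (RatFunc k))
  haveI := Fact.mk hirr
  let Ω := AdjoinRoot f
  let Fb := ULift.{v} Ω
  refine ⟨Fb, inferInstance, inferInstance, ⟨?_⟩⟩
  let e : Fb ≃ₐ[k] Ω := ULift.algEquiv
  let ψ : RatFunc k →ₐ[k] Fb := e.symm.toAlgHom.comp (IsScalarTower.toAlgHom k (RatFunc k) Ω)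
  let pb := AdjoinRoot.powerBasis hirr.ne_zero
  have hf : f.natDegree = n := by
    rw [(relPoly_monic φ).natDegree_map, relPoly_natDegree]
  have hpbdim : pb.dim = n := hf
  set x : Fb := ψ RatFunc.X
  have hx : Transcendental k x :=
    fun halg => (RatFunc.transcendental_X (K := k)) ((isAlgebraic_algHom_iff ψ ψ.injective).1 halg)
  have hrange : ψ.fieldRange = k⟮x⟯ := by
    rw [AlgHom.fieldRange_eq_map, ← RatFunc.adjoin_X, IntermediateField.adjoin_map,
      Set.image_singleton]
  let eL : RatFunc k ≃ₐ[k] k⟮x⟯ :=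
    (AlgEquiv.ofInjectiveField ψ).trans (IntermediateField.equivOfEq hrange)
  have heL : ∀ r, ((eL r : k⟮x⟯) : Fb) = ψ r := fun r => rfl
  have hfin : Module.finrank k⟮x⟯ Fb = n := by
    rw [← Algebra.finrank_eq_of_equiv_equiv eL.toRingEquiv e.symm.toRingEquiv
      (RingHom.ext fun r => heL r), PowerBasis.finrank pb, hpbdim]
  have hpow : ∀ i : ℕ, (e.symm (AdjoinRoot.root f)) ^ i = e.symm (AdjoinRoot.root f ^ i) :=
    fun i => (map_pow e.symm _ i).symm
  refine ⟨x, e.symm (AdjoinRoot.root f), hx, hn, ?_, ?_, hfin⟩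
  · have hroot := AdjoinRoot.eval₂_root f
    rw [eval₂_map, relPoly, eval₂_add, eval₂_finsetSum, eval₂_pow, eval₂_X] at hroot
    simp only [eval₂_mul, eval₂_C, eval₂_pow, eval₂_X, RingHom.comp_apply] at hroot
    rw [← map_zero e.symm, ← hroot, map_add, map_pow, map_sum]
    refine congrArg₂ (· + ·) rfl (Finset.sum_congr rfl fun j _ => ?_)
    rw [map_mul, map_pow]
    congr 1
    show aeval (ψ RatFunc.X) (φ j) = _
    rw [aeval_algHom_apply, RatFunc.aeval_X_left_eq_algebraMap]
    rfl
  · rw [Fintype.linearIndependent_iff]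
    intro c hc
    obtain ⟨d, hd⟩ : ∃ d : Fin n → RatFunc k, ∀ j, eL (d j) = c j :=
      ⟨fun j => eL.symm (c j), fun j => eL.apply_symm_apply _⟩
    have h0 : ∑ j : Fin n, d j • AdjoinRoot.root f ^ (j : ℕ) = 0 := by
      apply e.symm.injective
      rw [map_zero, map_sum, ← hc]
      refine Finset.sum_congr rfl fun j _ => ?_
      rw [IntermediateField.smul_def, smul_eq_mul, ← hd, heL, Algebra.smul_def, map_mul, hpow]
      rfl
    have hli := pb.basis.linearIndependent.comp _ (Fin.cast_injective hpbdim.symm)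
    rw [Fintype.linearIndependent_iff] at hli
    intro i
    have := hli d (by simpa [pb] using h0) i
    rw [← hd, this, map_zero]

section Model

variable {L k : Type*} [Field L] [Field k] {A : ValuationSubring L} {π : A →+* k}
variable {F Fb : Type*} [Field F] [Field Fb] [Algebra L F] [Algebra k Fb] {n : ℕ}
  {φA : Fin n → A[X]} (P : Pres L F n (mapRingHom A.subtype ∘ φA))
  (Q : Pres k Fb n (mapRingHom π ∘ φA))

/-- Quotients of integral polynomials with regular reduction. -/
def quotRing : Subring F where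
  carrier := {f | ∃ a b : A[X][X], Q.evalR π b ≠ 0 ∧ f * P.evalR A.subtype b = P.evalR A.subtype a}
  one_mem' := ⟨1, 1, by simp, by simp⟩
  zero_mem' := ⟨0, 1, by simp, by simp⟩
  mul_mem' := by
    rintro f g ⟨a, b, hb, hf⟩ ⟨a', b', hb', hg⟩
    exact ⟨a * a', b * b', by rw [map_mul]; exact mul_ne_zero hb hb', by
      rw [map_mul, map_mul, ← hf, ← hg]; ring⟩
  add_mem' := by
    rintro f g ⟨a, b, hb, hf⟩ ⟨a', b', hb', hg⟩
    exact ⟨a * b' + a' * b, b * b', by rw [map_mul]; exact mul_ne_zero hb hb', by
      rw [map_mul, map_add, map_mul, map_mul, ← hf, ← hg]; ring⟩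
  neg_mem' := by
    rintro f ⟨a, b, hb, hf⟩
    exact ⟨-a, b, hb, by rw [map_neg, ← hf]; ring⟩

theorem quot_unique {f : F} {a b a' b' : A[X][X]} (hb : Q.evalR π b ≠ 0) (hb' : Q.evalR π b' ≠ 0)
    (h : f * P.evalR A.subtype b = P.evalR A.subtype a)
    (h' : f * P.evalR A.subtype b' = P.evalR A.subtype a') :
    Q.evalR π a / Q.evalR π b = Q.evalR π a' / Q.evalR π b' := by
  have h0 := Pres.evalR_eq_zero_transfer A.subtype π Subtype.val_injective P Q
    (p := a * b' - a' * b) (by rw [map_sub, map_mul, map_mul, ← h, ← h']; ring)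
  rw [map_sub, map_mul, map_mul, sub_eq_zero] at h0
  rw [div_eq_div_iff hb hb', h0]

/-- The value of a quotient. -/
def quotVal (f : quotRing P Q) : Fb :=
  Q.evalR π f.2.choose / Q.evalR π f.2.choose_spec.choose

theorem quotVal_eq {f : quotRing P Q} {a b : A[X][X]} (hb : Q.evalR π b ≠ 0)
    (h : (f : F) * P.evalR A.subtype b = P.evalR A.subtype a) :
    quotVal P Q f = Q.evalR π a / Q.evalR π b :=
  quot_unique P Q f.2.choose_spec.choose_spec.1 hb f.2.choose_spec.choose_spec.2 h

/-- The reduction given by the relation. -/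
def presReduction : Reduction π F Fb where
  O := quotRing P Q
  red :=
    { toFun := quotVal P Q
      map_one' := by rw [quotVal_eq P Q (a := 1) (b := 1) (by simp) (by simp)]; simp
      map_zero' := by rw [quotVal_eq P Q (a := 0) (b := 1) (by simp) (by simp)]; simp
      map_mul' := by
        intro u v
        obtain ⟨a, b, hb, hf⟩ := u.2
        obtain ⟨a', b', hb', hg⟩ := v.2
        rw [quotVal_eq P Q (f := u) hb hf, quotVal_eq P Q (f := v) hb' hg, quotVal_eq P Q (f := u * v) (a := a * a') (b := b * b')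
          (by rw [map_mul]; exact mul_ne_zero hb hb') (by
            rw [map_mul, map_mul, ← hf, ← hg]; show (u : F) * (v : F) * _ = _; ring)]
        rw [map_mul, map_mul, div_mul_div_comm]
      map_add' := by
        intro u v
        obtain ⟨a, b, hb, hf⟩ := u.2
        obtain ⟨a', b', hb', hg⟩ := v.2
        rw [quotVal_eq P Q (f := u) hb hf, quotVal_eq P Q (f := v) hb' hg, quotVal_eq P Q (f := u + v)
          (a := a * b' + a' * b) (b := b * b')
          (by rw [map_mul]; exact mul_ne_zero hb hb') (by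
            rw [map_mul, map_add, map_mul, map_mul, ← hf, ← hg]; show ((u : F) + (v : F)) * _ = _; ring)]
        rw [map_mul, map_add, map_mul, map_mul, div_add_div _ _ hb hb']
        ring }
  algebraMap_mem a := ⟨C (C a), 1, by simp, by simp [Pres.evalR]⟩
  red_algebraMap a := by
    show quotVal P Q _ = _
    rw [quotVal_eq P Q (a := C (C a)) (b := 1) (by simp) (by simp [Pres.evalR])]
    simp [Pres.evalR]
  inv_mem u hne := by
    obtain ⟨a, b, hb, hf⟩ := u.2
    have hne' : Q.evalR π a ≠ 0 := fun h0 => hne ((quotVal_eq P Q (f := u) hb hf).trans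
      (by rw [h0, zero_div]))
    have hf0 : (u : F) ≠ 0 := fun h0 => by
      rw [h0, zero_mul] at hf
      exact hne' (Pres.evalR_eq_zero_transfer A.subtype π Subtype.val_injective P Q hf.symm)
    exact ⟨b, a, hne', by rw [← hf, ← mul_assoc, inv_mul_cancel₀ hf0, one_mul]⟩

theorem presReduction_res {f : F} {a : A[X][X]} (h : f = P.evalR A.subtype a) :
    (presReduction P Q).Res f (Q.evalR π a) := by
  subst h
  have hb : Q.evalR π 1 ≠ 0 := by rw [map_one]; exact one_ne_zero
  have he : P.evalR A.subtype a * P.evalR A.subtype 1 = P.evalR A.subtype a := by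
    rw [map_one, mul_one]
  refine ⟨⟨a, 1, hb, he⟩, ?_⟩
  refine (quotVal_eq P Q (f := ⟨_, ⟨a, 1, hb, he⟩⟩) hb he).trans ?_
  rw [map_one, div_one]

/-- The model given by the relation. -/
def presModel (hπ : Function.Surjective π) : Model π F Fb where
  toReduction := presReduction P Q
  surj := hπ
  x := P.x
  xb := Q.x
  x_res := by
    have h := presReduction_res P Q (f := P.x) (a := C X) (by simp [Pres.evalR])
    simpa [Pres.evalR] using h
  transcendental := Q.trans
  finrank_eq := by rw [P.finrank_eq, Q.finrank_eq]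
  gen z := by
    set E := IntermediateField.adjoin k (Set.range (presReduction P Q).red)
    have hx : Q.x ∈ E := by
      obtain ⟨h, he⟩ := presReduction_res P Q (f := P.x) (a := C X) (by simp [Pres.evalR])
      exact subset_adjoin k _ ⟨⟨_, h⟩, he.trans (by simp [Pres.evalR])⟩
    have hy : Q.y ∈ E := by
      obtain ⟨h, he⟩ := presReduction_res P Q (f := P.y) (a := X) (by simp [Pres.evalR])
      exact subset_adjoin k _ ⟨⟨_, h⟩, he.trans (by simp [Pres.evalR])⟩
    rw [← Q.basis.sum_repr z]
    refine sum_mem fun j _ => ?_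
    rw [IntermediateField.smul_def, Q.basis_apply]
    exact mul_mem ((adjoin_simple_le_iff.2 hx) (Q.basis.repr z j).2) (pow_mem hy _)

theorem presModel_smooth [IsAlgClosed L] [IsFunctionField L F] [IsAlgClosed k]
    [IsFunctionField k Fb] (hπ : Function.Surjective π) (h : rGenus L F ≤ rGenus k Fb) :
    (presModel P Q hπ).Smooth := by
  set M := presModel P Q hπ
  obtain ⟨m₁, hm₁⟩ := M.exists_le_mul (max (rBound L F) (rBound k Fb))
  refine ⟨m₁, fun m hm => ?_⟩
  have h1 := hm₁ m hm
  rw [ell_eq (by rw [M.degree_poles_red]; exact le_trans (le_max_right _ _) h1),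
    ell_eq (by rw [M.degree_poles]; exact le_trans (le_max_left _ _) h1), M.degree_poles_red,
    M.degree_poles]
  omega

end Model

end FLTAgent.Jac27.Spread
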