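import Fermat.Agent.Jac27.Spread.Constants
import Fermat.Agent.Jac27.Spread.Reduce
import Fermat.Agent.Jac27.Spread.Places
import Fermat.Agent.Jac27.Interface

/-!
# Spreading torsion classes over places of large residue characteristic

A curve in characteristic zero and finitely many classes descend to the algebraic closure of a
finitely generated field; at a place where finitely many constants are integral the descended
curve has a smooth model.
-/

set_option autoImplicit false
set_option linter.style.haveILetI false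
set_option linter.unusedSectionVars false

noncomputable section

open scoped Classical

namespace FLTAgent.Jac27

open AlgebraicCurve FLTAgent.Curves FLTAgent.Specialization Polynomial IntermediateField
open FLTAgent.Jac27.Spread

universe u v

namespace Spread

/-- A presentation of a function field in characteristic zero. -/
theorem exists_pres (K : Type u) (F : Type v) [Field K] [Field F] [Algebra K F] [IsAlgClosed K]
    [CharZero K] [IsFunctionField K F] :
    ∃ (n : ℕ) (φ : Fin n → K[X]), Nonempty (Pres K F n φ) := by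
  obtain ⟨x, hx, hfd⟩ := IsFunctionField.exists_transcendental (K := K) (F := F)
  haveI : CharZero K⟮x⟯ := charZero_of_injective_algebraMap (algebraMap K K⟮x⟯).injective
  obtain ⟨y₀, hy₀⟩ := Field.exists_primitive_element K⟮x⟯ F
  obtain ⟨q, hq, hint⟩ := exists_mul_aeval_integral (K := K) x y₀
  set y := aeval x q * y₀
  have hy : (K⟮x⟯)⟮y⟯ = ⊤ := by
    refine eq_top_iff.2 (hy₀ ▸ adjoin_simple_le_iff.2 ?_)
    have h1 : aeval x q ≠ 0 := aeval_ne_zero hx hq
    have h2 : y₀ = algebraMap K⟮x⟯ F (polyIn x q)⁻¹ * y := by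
      rw [map_inv₀, show algebraMap K⟮x⟯ F (polyIn x q) = aeval x q from coe_polyIn x q,
        ← mul_assoc, inv_mul_cancel₀ h1, one_mul]
    rw [h2]
    exact mul_mem (IntermediateField.algebraMap_mem _ _) (mem_adjoin_simple_self _ _)
  obtain ⟨B⟩ := nonempty_reducedBasis (K := K) hx
  set n := Module.finrank K⟮x⟯ F with hn
  have hint' : IntegralWrt K x y := hint
  set b := B.wBasis hx
  set χ := (Algebra.leftMulMatrix b y).charpoly
  have hcoef : ∀ i, ∃ p : K[X], ((χ.coeff i : K⟮x⟯) : F) = aeval x p := by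
    intro i
    have h : χ.coeff i ∈ (polyIn x).range.toSubring := by
      refine charpoly_coeff_mem _ _ (fun l j => ?_) i
      obtain ⟨p, hp⟩ := B.exists_polynomial_coord hx (f := y * B.w j) fun v hv => by
        simpa using (hint' v hv).mul (B.integral j v hv)
      refine ⟨p l, Subtype.ext ?_⟩
      rw [Algebra.leftMulMatrix_eq_repr_mul, ReducedBasis.coe_wBasis]
      exact (coe_polyIn x (p l)).trans (hp l).symm
    obtain ⟨p, hp⟩ := h
    exact ⟨p, by rw [← hp]; exact coe_polyIn x p⟩
  choose p hp using hcoef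
  have hdim : χ.natDegree = n := (Matrix.charpoly_natDegree_eq_dim _).trans (Fintype.card_fin n)
  have h0 : aeval y χ = 0 := by
    refine Algebra.leftMulMatrix_injective b ?_
    rw [map_zero, ← aeval_algHom_apply]
    exact Matrix.aeval_self_charpoly _
  have hmin : (minpoly K⟮x⟯ y).natDegree = n := by
    rw [← IntermediateField.adjoin.finrank (Algebra.IsIntegral.isIntegral y), hy,
      IntermediateField.finrank_top']
  refine ⟨n, fun j => p j, ⟨⟨x, y, hx, Module.finrank_pos, ?_, ?_, rfl⟩⟩⟩
  · rw [aeval_eq_sum_range, hdim, Finset.sum_range_succ, Finset.sum_range] at h0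
    simp only [IntermediateField.smul_def, smul_eq_mul, hp] at h0
    rw [← hp n, show χ.coeff n = 1 by
      rw [← hdim]; exact (Matrix.charpoly_monic _).coeff_natDegree] at h0
    rw [add_comm]
    simpa using h0
  · exact (linearIndependent_pow y).comp (Fin.cast hmin.symm) (Fin.cast_injective _)

theorem mem_range_of_pres {K L F₀ F : Type*} [Field L] [Field K] [Field F₀] [Field F] [Algebra L K]
    [Algebra L F₀] [Algebra K F] [Algebra L F] [IsScalarTower L K F] [IsAlgClosed L]
    [IsAlgClosed K] [IsFunctionField L F₀] [IsFunctionField K F] (ι : F₀ →ₐ[L] F)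
    (h : ConstExt (K := K) ι) {x₀ : F₀} {w : Place K F}
    (hval : 0 ≤ w.ord (ι x₀) → ∃ a : L, OrdGE w 1 (ι x₀ - algebraMap L F a))
    (hx : Transcendental K (ι x₀)) : w ∈ Set.range (liftPlace ι h) := by
  rcases lt_or_ge (w.ord (ι x₀)) 0 with hneg | hpos
  · exact mem_range_liftPlace ι h (t := x₀) hneg.ne
  obtain ⟨a, ha⟩ := hval hpos
  refine mem_range_liftPlace ι h (t := x₀ - algebraMap L F₀ a) ?_
  rw [map_sub, ι.commutes]
  have h0 : ι x₀ - algebraMap L F a ≠ 0 := fun h0 => hx (by
    rw [sub_eq_zero.1 h0, IsScalarTower.algebraMap_apply L K F]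
    exact isAlgebraic_algebraMap _)
  have := ha.le_ord h0
  omega

/-- Descent of a presentation to a subfield of the constants containing its coefficients. -/
theorem exists_descent {L K : Type u} {F : Type v} [Field L] [Field K] [Field F] [Algebra L K]
    [Algebra K F] [Algebra L F] [IsScalarTower L K F] {n : ℕ} {φ : Fin n → K[X]}
    (P : Pres K F n φ) (φL : Fin n → L[X]) (hφL : ∀ j, (φL j).map (algebraMap L K) = φ j) :
    ∃ (F₀ : Type (max u v)) (_ : Field F₀) (_ : Algebra L F₀) (P₀ : Pres L F₀ n φL)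
      (ι : F₀ →ₐ[L] F), ConstExt (K := K) ι ∧ ι P₀.x = P.x := by
  let E₀ : IntermediateField L F := IntermediateField.adjoin L {P.x, P.y}
  let F₀ : Type (max u v) := ULift.{u} E₀
  let e₀ : F₀ ≃ₐ[L] E₀ := ULift.algEquiv
  let ι : F₀ →ₐ[L] F := E₀.val.comp e₀.toAlgHom
  let x₀ : F₀ := ⟨⟨P.x, subset_adjoin L _ (by simp)⟩⟩
  let y₀ : F₀ := ⟨⟨P.y, subset_adjoin L _ (by simp)⟩⟩
  have hιx : ι x₀ = P.x := rfl
  have hιy : ι y₀ = P.y := rfl
  have hx₀ : Transcendental L x₀ := fun halg => P.trans (by
    have h1 := halg.algHom ι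
    rw [hιx] at h1
    exact h1.extendScalars (algebraMap L K).injective)
  have hind₀ : LinearIndependent L⟮x₀⟯ fun j : Fin n => y₀ ^ (j : ℕ) := by
    rw [Fintype.linearIndependent_iff]
    intro c hc i
    have h1 := congrArg ι hc
    simp only [map_sum, IntermediateField.smul_def, smul_eq_mul, map_mul, map_pow, hιy,
      map_zero] at h1
    have h2 := P.coord_eq_zero
      (c := fun j => ⟨ι (c j : F₀), hιx ▸ map_adjoin_simple_mem ι (c j).2⟩) h1
    have h3 : ι (c i : F₀) = 0 := congrArg Subtype.val (congrFun h2 i)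
    exact Subtype.ext ((map_eq_zero_iff ι ι.injective).1 h3)
  have hrel₀ : y₀ ^ n + ∑ j, aeval x₀ (φL j) * y₀ ^ (j : ℕ) = 0 := by
    refine (map_eq_zero_iff ι ι.injective).1 ?_
    rw [map_add, map_pow, map_sum, hιy, ← P.rel]
    refine congrArg₂ (· + ·) rfl (Finset.sum_congr rfl fun j _ => ?_)
    rw [map_mul, map_pow, hιy, ← aeval_algHom_apply, hιx, ← hφL j, aeval_map_algebraMap]
  have hFF₀ : IntermediateField.adjoin L ({x₀, y₀} : Set F₀) = ⊤ := by
    refine IntermediateField.map_injective ι ?_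
    rw [IntermediateField.adjoin_map, Set.image_insert_eq, Set.image_singleton, hιx, hιy,
      ← AlgHom.fieldRange_eq_map]
    refine le_antisymm (IntermediateField.adjoin_le_iff.2 ?_) ?_
    · intro z hz
      rcases hz with rfl | rfl
      exacts [⟨x₀, rfl⟩, ⟨y₀, rfl⟩]
    · rintro z ⟨f, rfl⟩
      exact (e₀ f).2
  let polyL : Polynomial L⟮x₀⟯ := (relPoly φL).map (polyIn x₀).toRingHom
  have hpolyL : eval₂ (algebraMap L⟮x₀⟯ F₀) y₀ polyL = 0 := by
    have hc : ∀ p, algebraMap L⟮x₀⟯ F₀ ((polyIn x₀).toRingHom p) = aeval x₀ p := coe_polyIn x₀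
    simp only [polyL, relPoly, eval₂_map, eval₂_add, eval₂_finsetSum, eval₂_pow, eval₂_mul, eval₂_X,
      eval₂_C, RingHom.comp_apply, hc]
    exact hrel₀
  have hmonic : polyL.Monic := (relPoly_monic φL).map _
  have htop : (L⟮x₀⟯)⟮y₀⟯ = ⊤ := by
    apply IntermediateField.restrictScalars_injective L
    rw [IntermediateField.restrictScalars_top]
    refine eq_top_iff.2 (hFF₀ ▸ IntermediateField.adjoin_le_iff.2 ?_)
    intro z hz
    rcases hz with rfl | rfl
    · exact (L⟮x₀⟯)⟮y₀⟯.algebraMap_mem ⟨x₀, mem_adjoin_simple_self L x₀⟩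
    · exact mem_adjoin_simple_self L⟮x₀⟯ y₀
  have hy₀int : IsIntegral L⟮x₀⟯ y₀ := ⟨polyL, hmonic, hpolyL⟩
  haveI hfd₀ : FiniteDimensional L⟮x₀⟯ F₀ := by
    haveI := IntermediateField.adjoin.finiteDimensional hy₀int
    exact Module.Finite.equiv
      ((IntermediateField.equivOfEq htop).trans IntermediateField.topEquiv).toLinearEquiv
  have hfin₀ : Module.finrank L⟮x₀⟯ F₀ = n := by
    refine le_antisymm ?_ ?_
    · rw [← IntermediateField.finrank_top', ← htop, IntermediateField.adjoin.finrank hy₀int]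
      refine (natDegree_le_natDegree (minpoly.min L⟮x₀⟯ y₀ hmonic hpolyL)).trans ?_
      refine natDegree_map_le.trans ?_
      rw [relPoly_natDegree]
    · simpa using hind₀.fintype_card_le_finrank
  let P₀ : Pres L F₀ n φL := ⟨x₀, y₀, hx₀, P.pos, hrel₀, hind₀, hfin₀⟩
  have hCE : ConstExt (K := K) ι := by
    refine ⟨eq_top_iff.2 fun z _ => ?_, x₀, by rw [hιx]; exact P.trans⟩
    rw [← P.basis.sum_repr z]
    refine sum_mem fun j _ => ?_
    rw [IntermediateField.smul_def, P.basis_apply]
    have hx : P.x ∈ IntermediateField.adjoin K (Set.range ι) :=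
      subset_adjoin K (Set.range ι) ⟨x₀, rfl⟩
    exact mul_mem ((adjoin_simple_le_iff.2 hx) (P.basis.repr z j).2)
      (pow_mem (subset_adjoin K (Set.range ι) ⟨y₀, rfl⟩) _)
  exact ⟨F₀, inferInstance, inferInstance, P₀, ι, hCE, hιx⟩

/-- Spreading from a descended presentation. -/
theorem spread_of_descent {L K : Type u} {F : Type v} [Field L] [Field K] [Field F] [Algebra L K]
    [Algebra K F] [Algebra L F] [IsScalarTower L K F] [IsAlgClosed L] [IsAlgClosed K] [CharZero L]
    [IsFunctionField K F] {n : ℕ} {φ : Fin n → K[X]} (P : Pres K F n φ) (φL : Fin n → L[X])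
    (hφL : ∀ j, (φL j).map (algebraMap L K) = φ j) (SL : Set L) (hSfin : SL.Finite)
    (halg : Algebra.IsAlgebraic (IntermediateField.adjoin ℚ SL) L) (m : ℕ)
    (s : Finset (Pic0.torsion K F m)) (rep : Pic0.torsion K F m → Divisor.degZero (K := K) (F := F))
    (hrep : ∀ c, Pic0.mk (rep c) = (c : Pic0 K F))
    (hval : ∀ c ∈ s, ∀ w ∈ (rep c : Divisor K F).support, 0 ≤ w.ord P.x →
      ∃ a : L, OrdGE w 1 (P.x - algebraMap L F a)) (B : ℕ) :
    ∃ (p : ℕ) (_ : Fact p.Prime) (L k : Type u) (_ : Field L) (_ : Field k) (_ : IsAlgClosed L)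
      (_ : IsAlgClosed k) (_ : Algebra (ZMod p) k) (_ : Algebra.IsAlgebraic (ZMod p) k)
      (A : ValuationSubring L) (π : A →+* k) (F₀ Fb : Type (max u v)) (_ : Field F₀)
      (_ : Field Fb) (_ : Algebra L F₀) (_ : Algebra k Fb) (_ : IsFunctionField L F₀)
      (_ : IsFunctionField k Fb) (M : Model π F₀ Fb),
      B < p ∧ M.Smooth ∧ RankOne π ∧ rGenus L F₀ = rGenus K F ∧ rGenus k Fb = rGenus K F ∧
        ∃ ι : Pic0.torsion L F₀ m → Pic0.torsion K F m,
          Function.Injective ι ∧ ∀ c ∈ s, c ∈ Set.range ι := by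
  obtain ⟨F₀, iF₀, iA₀, P₀, ι, hCE, hιx⟩ := exists_descent P φL hφL
  haveI : IsFunctionField L F₀ := P₀.isFunctionField
  have hφL' : mapRingHom (algebraMap L K) ∘ φL = φ := funext hφL
  -- the genus
  obtain ⟨Tg, hTg⟩ := exists_genus_cert.{u, max u v, v} P₀
  have hgK : rGenus L F₀ = rGenus K F := by
    refine le_antisymm (hTg L K (RingHom.id L) (algebraMap L K) Function.injective_id
      (by simp) φL (funext fun j => by simp [mapRingHom_id]) F (hφL' ▸ P)) ?_
    exact rGenus_map_le ι hCE
  -- the place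
  obtain ⟨Tg', hTg'⟩ := exists_genus_cert.{u, max u v, max u v} P₀
  obtain ⟨Ti, hTi⟩ := Spread.exists_irreducible_cert P₀
  obtain ⟨p, hp, k, _, _, _, _, A, π, hpB, hπ, hrk, hT⟩ := Spread.exists_place SL
    hSfin halg
    (Tg' ∪ Ti ∪ Finset.univ.biUnion fun j : Fin n => (φL j).coeffs) B
  have hφA : ∀ j, ∃ q : Polynomial A, q.map A.subtype = φL j := fun j => by
    rw [← mem_lifts, lifts_iff_coeff_lifts]
    intro l
    by_cases h0 : (φL j).coeff l = 0
    · exact ⟨0, by rw [map_zero, h0]⟩
    · exact ⟨⟨_, hT _ (Finset.mem_union_right _ (Finset.mem_biUnion.2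
        ⟨j, Finset.mem_univ j, coeff_mem_coeffs h0⟩))⟩, rfl⟩
  choose φA hφA using hφA
  have hφA' : mapRingHom A.subtype ∘ φA = φL := funext hφA
  have hirr := hTi A k A.subtype π Subtype.val_injective
    (fun t ht => ⟨⟨t, hT t (Finset.mem_union_left _ (Finset.mem_union_right _ ht))⟩, rfl⟩) φA hφA'
  obtain ⟨Fb, iF, iA, ⟨Q⟩⟩ := Spread.exists_pres_of_irreducible.{u, v} _ P.pos hirr
  haveI : IsFunctionField k Fb := Q.isFunctionField
  have hgk : rGenus L F₀ ≤ rGenus k Fb := hTg' A k A.subtype π Subtype.val_injective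
    (fun t ht => ⟨⟨t, hT t (Finset.mem_union_left _ (Finset.mem_union_left _ ht))⟩, rfl⟩) φA hφA'
    Fb Q
  subst hφA'
  set M := presModel P₀ Q hπ
  have hsm : M.Smooth := presModel_smooth P₀ Q hπ hgk
  refine ⟨p, hp, L, k, inferInstance, inferInstance, inferInstance, inferInstance, inferInstance,
    inferInstance, A, π, F₀, Fb, inferInstance, iF, inferInstance, iA, inferInstance, inferInstance,
    M, hpB, hsm, hrk, hgK, hsm.rGenus_eq.trans hgK, ?_⟩
  have hinj := liftPic_injective ι hCE hgK.le
  refine ⟨fun a => ⟨liftPic ι hCE a.1, Pic0.mem_torsion.2 (by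
    rw [← map_zsmul, Pic0.mem_torsion.1 a.2, map_zero])⟩,
    fun a b h => Subtype.ext (hinj (congrArg Subtype.val h)), fun c hc => ?_⟩
  obtain ⟨a, ha⟩ := mk_mem_range_liftPic ι hCE (rep c) fun w hw => by
    refine mem_range_of_pres ι hCE (x₀ := P₀.x) (fun hpos => ?_) (by rw [hιx]; exact P.trans)
    rw [hιx] at hpos ⊢
    exact hval c hc w hw hpos
  rw [hrep c] at ha
  exact ⟨⟨a, Pic0.mem_torsion.2 (hinj (by
    rw [map_zsmul, ha, map_zero]; exact Pic0.mem_torsion.1 c.2))⟩, Subtype.ext ha⟩


end Spread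

/-- Torsion classes spread out. -/
theorem targetSpread : TargetSpread.{u, v} := by
  intro K F _ _ _ _ _ _ m hm s B
  obtain ⟨n, φ, ⟨P⟩⟩ := Spread.exists_pres K F
  -- representatives and their values
  choose rep hrep using fun c : Pic0.torsion K F m => Pic0.mk_surjective (c : Pic0 K F)
  have hval : ∀ w : Place K F, ∃ a : K, 0 ≤ w.ord P.x → OrdGE w 1 (P.x - algebraMap K F a) :=
    fun w => by
      by_cases h : 0 ≤ w.ord P.x
      · obtain ⟨a, ha⟩ := exists_residue w (ordGE_of_le h)
        exact ⟨a, fun _ => ha⟩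
      · exact ⟨0, fun h' => absurd h' h⟩
  choose val hval using hval
  set S : Finset K := (Finset.univ.biUnion fun j : Fin n => (φ j).coeffs) ∪
    (s.biUnion fun c => (rep c : Divisor K F).support.image val)
  -- the smaller constants
  let E : IntermediateField ℚ K := IntermediateField.adjoin ℚ (S : Set K)
  let L : IntermediateField E K := algebraicClosure E K
  haveI : IsAlgClosed L := (algebraicClosure.isAlgClosure E K).isAlgClosed
  haveI : CharZero L := charZero_of_injective_algebraMap (algebraMap E L).injective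
  have hSL : ∀ a ∈ S, a ∈ L := fun a ha =>
    L.algebraMap_mem ⟨a, IntermediateField.subset_adjoin ℚ _ ha⟩
  have hφ : ∀ j, ∃ p : Polynomial L, p.map (algebraMap L K) = φ j := fun j => by
    rw [← mem_lifts, lifts_iff_coeff_lifts]
    intro l
    by_cases h0 : (φ j).coeff l = 0
    · exact ⟨0, by rw [map_zero, h0]⟩
    · exact ⟨⟨_, hSL _ (Finset.mem_union_left _ (Finset.mem_biUnion.2
        ⟨j, Finset.mem_univ j, coeff_mem_coeffs h0⟩))⟩, rfl⟩
  choose φL hφL using hφ
  have hφL' : mapRingHom (algebraMap L K) ∘ φL = φ := funext hφL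
  let SL : Set L := (algebraMap L K) ⁻¹' (S : Set K)
  have halg : Algebra.IsAlgebraic (IntermediateField.adjoin ℚ SL) L := by
    refine ⟨fun z => ?_⟩
    have hz : IsAlgebraic E (z : K) :=
      (mem_algebraicClosure_iff (F := E)).1 z.2
    have hES : ∀ a ∈ E, ∃ a' ∈ IntermediateField.adjoin ℚ SL, algebraMap L K a' = a := fun a ha => by
      have h1 : E ≤ (IntermediateField.adjoin ℚ SL).map
          ((algebraMap L K).toRatAlgHom : L →ₐ[ℚ] K) := by
        refine IntermediateField.adjoin_le_iff.2 fun b hb => ?_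
        exact ⟨⟨b, hSL b hb⟩, IntermediateField.subset_adjoin ℚ SL hb, rfl⟩
      obtain ⟨a', ha', e⟩ := h1 ha
      exact ⟨a', ha', e⟩
    choose f hf hfe using fun a : E => hES a a.2
    let j : E →+* IntermediateField.adjoin ℚ SL :=
      { toFun := fun a => ⟨f a, hf a⟩
        map_one' := Subtype.ext ((algebraMap L K).injective ((hfe 1).trans (map_one _).symm))
        map_zero' := Subtype.ext ((algebraMap L K).injective ((hfe 0).trans (map_zero _).symm))
        map_mul' := fun a b => Subtype.ext ((algebraMap L K).injective (by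
          simp only [IntermediateField.coe_mul, map_mul, hfe]))
        map_add' := fun a b => Subtype.ext ((algebraMap L K).injective (by
          simp only [IntermediateField.coe_add, map_add, hfe])) }
    obtain ⟨p, hp, hp0⟩ := hz
    refine ⟨p.map j, fun h => hp ((Polynomial.map_eq_zero_iff j.injective).1 h),
      (algebraMap L K).injective ?_⟩
    rw [map_zero, aeval_def, eval₂_map, Polynomial.hom_eval₂, ← hp0, aeval_def]
    congr 1
    exact RingHom.ext fun a => hfe a
  refine Spread.spread_of_descent P φL hφL SL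
    (S.finite_toSet.preimage (algebraMap L K).injective.injOn) halg m s rep hrep
    (fun c hc w hw hpos => ⟨⟨val w, hSL _ (Finset.mem_union_right _ (Finset.mem_biUnion.2
      ⟨c, hc, Finset.mem_image_of_mem val hw⟩))⟩, hval w hpos⟩) B

end FLTAgent.Jac27
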